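import Fermat.Agent.MF.Duality

/-!
Eigencharacters of normalised eigenforms.
-/

set_option autoImplicit false

noncomputable section

open scoped MatrixGroups
open UpperHalfPlane ModularFormClass

namespace FermatAgent.MF

variable {N : ℕ} [NeZero N] {k : ℤ}
variable {f : CuspForm (CongruenceSubgroup.Gamma0 N) k}

/-- The eigencharacter of a normalised eigenform. -/
def IsEigen.char (h : IsEigen f) (S : Set ℕ) : CuspForm.heckeAlgebra N k S →+* ℂ where
  toFun t := qCoeff (⇑(t.1 f)) 1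
  map_one' := h.1
  map_mul' s t := by
    show qCoeff (⇑(s.1 (t.1 f))) 1 = _
    have e : s.1 (t.1 f) = qCoeff (⇑(t.1 f)) 1 • s.1 f := by
      conv_lhs => rw [h.exists_eigenvalue t.2]
      exact map_smul s.1 _ f
    rw [e, qCoeff_smul, mul_comm]
  map_zero' := qCoeff_zero_fun 1
  map_add' s t := qCoeff_add (s.1 f) (t.1 f) 1

/-- The character of an eigenform sends `T_ℓ` to the coefficient `a_ℓ`. -/
lemma IsEigen.char_heckeAt (h : IsEigen f) {S : Set ℕ} {ℓ : ℕ} (hℓ : ℓ.Prime) (hS : ℓ ∉ S) :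
    h.char S ⟨_, heckeAt_mem hℓ hS⟩ = qCoeff f ℓ :=
  qCoeff_one_heckeAt hℓ f

end FermatAgent.MF
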