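import Mathlib

/-!
The Deligne–Serre lifting lemma, abstract form: if a commutative ring `T` acts on a
finite-dimensional space over an algebraically closed field and `𝔪` is a prime containing the
annihilator, then some simultaneous eigencharacter has kernel contained in `𝔪`.
-/

set_option autoImplicit false

noncomputable section

namespace FermatAgent.MF

open Module

variable {K V : Type*} [Field K] [IsAlgClosed K] [AddCommGroup V] [Module K V]
  [FiniteDimensional K V] {T : Type*} [CommRing T] (ρ : T →+* Module.End K V)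

/-- A subspace stable under the action of `T`. -/
def IsStable (W : Submodule K V) : Prop := ∀ t : T, ∀ w ∈ W, ρ t w ∈ W

omit [IsAlgClosed K] [FiniteDimensional K V] in
/-- The operators of a commutative algebra commute. -/
lemma ρ_commute (s t : T) : Commute (ρ s) (ρ t) := (Commute.all s t).map ρ

/-- Every nonzero stable subspace contains a common eigenvector. -/
theorem exists_common_eigenvector {W : Submodule K V} (hW : IsStable ρ W) (hW0 : W ≠ ⊥) :
    ∃ (v : V) (χ : T →+* K), v ∈ W ∧ v ≠ 0 ∧ ∀ t, ρ t v = χ t • v := by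
  obtain ⟨P, ⟨hPs, hPW, hP0⟩, hmin⟩ := (wellFounded_lt (α := Submodule K V)).has_min
    {P | IsStable ρ P ∧ P ≤ W ∧ P ≠ ⊥} ⟨W, hW, le_rfl, hW0⟩
  have hscal : ∀ t, ∃ c : K, ∀ w ∈ P, ρ t w = c • w := by
    intro t
    have : Nontrivial P := Submodule.nontrivial_iff_ne_bot.mpr hP0
    obtain ⟨c, hc⟩ := Module.End.exists_eigenvalue ((ρ t).restrict (hPs t))
    obtain ⟨x, hx⟩ := hc.exists_hasEigenvector
    let Q : Submodule K V := P ⊓ Module.End.eigenspace (ρ t) c
    have hQs : IsStable ρ Q := fun s w hw => ⟨hPs s w hw.1, by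
      have h2 := Module.End.mem_eigenspace_iff.mp hw.2
      rw [SetLike.mem_coe, Module.End.mem_eigenspace_iff, ← Module.End.mul_apply,
        (ρ_commute ρ t s).eq, Module.End.mul_apply, h2, map_smul]⟩
    have hQ0 : Q ≠ ⊥ := fun h => hx.2 (Subtype.ext ((Submodule.eq_bot_iff Q).mp h x
      ⟨x.2, Module.End.mem_eigenspace_iff.mpr (congrArg Subtype.val hx.apply_eq_smul)⟩))
    have : Q = P := eq_of_le_of_not_lt inf_le_left
      (hmin Q ⟨hQs, inf_le_left.trans hPW, hQ0⟩)
    exact ⟨c, fun w hw => Module.End.mem_eigenspace_iff.mp (this.symm.le hw).2⟩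
  obtain ⟨v, hvP, hv0⟩ := Submodule.exists_mem_ne_zero_of_ne_bot hP0
  choose c hc using hscal
  have hc' : ∀ t, ρ t v = c t • v := fun t => hc t v hvP
  have inj : ∀ {a b : K}, a • v = b • v → a = b := fun h => smul_left_injective K hv0 h
  refine ⟨v,
    { toFun := c
      map_one' := inj (by rw [← hc' 1]; simp)
      map_mul' := fun s t => inj (by
        rw [← hc' (s * t), map_mul, Module.End.mul_apply, hc', map_smul, hc', smul_smul,
          mul_comm])
      map_zero' := inj (by rw [← hc' 0]; simp)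
      map_add' := fun s t => inj (by rw [← hc' (s + t), map_add, LinearMap.add_apply, hc', hc',
        add_smul]) },
    hPW hvP, hv0, hc'⟩

/-- A prime containing the annihilator contains the kernel of some eigencharacter. -/
theorem exists_eigenvector_ker_le (𝔪 : Ideal T) [𝔪.IsPrime] (h : RingHom.ker ρ ≤ 𝔪) :
    ∃ (v : V) (χ : T →+* K), v ≠ 0 ∧ (∀ t, ρ t v = χ t • v) ∧ RingHom.ker χ ≤ 𝔪 := by
  classical
  obtain ⟨W, ⟨hWs, hWm⟩, hmin⟩ := (wellFounded_lt (α := Submodule K V)).has_min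
    {W | IsStable ρ W ∧ ∀ t, (∀ w ∈ W, ρ t w = 0) → t ∈ 𝔪}
    ⟨⊤, fun _ _ _ => Submodule.mem_top, fun t ht => h <| LinearMap.ext fun w => ht w trivial⟩
  have hW0 : W ≠ ⊥ := by
    rintro rfl
    refine ‹𝔪.IsPrime›.ne_top ((Ideal.eq_top_iff_one 𝔪).mpr (hWm 1 fun w hw => ?_))
    simp [(Submodule.mem_bot K).mp hw]
  obtain ⟨v, χ, hvW, hv0, hχ⟩ := exists_common_eigenvector ρ hWs hW0
  refine ⟨v, χ, hv0, hχ, fun t ht => ?_⟩
  -- some generalised eigenspace of `t` still has annihilator inside `𝔪`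
  obtain ⟨μ, hμ⟩ : ∃ μ : K, W ≤ (ρ t).maxGenEigenspace μ := by
    let E : K → Submodule K V := fun μ => W ⊓ (ρ t).maxGenEigenspace μ
    have hEs : ∀ μ, IsStable ρ (E μ) := fun μ s w hw =>
      ⟨hWs s w hw.1, Module.End.mapsTo_maxGenEigenspace_of_comm (ρ_commute ρ t s) μ hw.2⟩
    by_contra! hcon
    have hnot : ∀ μ, ∃ s, (∀ w ∈ E μ, ρ s w = 0) ∧ s ∉ 𝔪 := by
      intro μ
      by_contra! hne
      exact hcon μ (inf_eq_left.mp (eq_of_le_of_not_lt inf_le_left (hmin (E μ) ⟨hEs μ, hne⟩)))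
    choose s hs hsm using hnot
    have hfin : {μ : K | (ρ t).HasEigenvalue μ}.Finite := Module.End.finite_hasEigenvalue _
    have hprod : ∏ μ ∈ hfin.toFinset, s μ ∈ 𝔪 := by
      refine hWm _ fun w hw => ?_
      have htop : W = ⨆ μ, E μ := by
        show W = ⨆ μ, W ⊓ (ρ t).maxGenEigenspace μ
        have h1 : W ⊓ ⨆ μ, (ρ t).maxGenEigenspace μ = ⨆ μ, W ⊓ (ρ t).maxGenEigenspace μ :=
          Submodule.inf_iSup_genEigenspace (fun x hx => hWs t x hx) ⊤
        rw [← h1, Module.End.iSup_maxGenEigenspace_eq_top, inf_top_eq]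
      suffices W ≤ LinearMap.ker (ρ (∏ μ ∈ hfin.toFinset, s μ)) from this hw
      conv_lhs => rw [htop]
      refine iSup_le fun μ x hx => ?_
      by_cases hμ : μ ∈ hfin.toFinset
      · rw [LinearMap.mem_ker, ← Finset.prod_erase_mul _ _ hμ, map_mul, Module.End.mul_apply,
          hs μ x hx, map_zero]
      · have : (ρ t).maxGenEigenspace μ = ⊥ := by
          by_contra hne
          exact hμ (hfin.mem_toFinset.mpr (Module.End.HasUnifEigenvalue.lt zero_lt_one hne))
        obtain ⟨-, hx2⟩ := hx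
        rw [this, SetLike.mem_coe, Submodule.mem_bot] at hx2
        rw [hx2, LinearMap.mem_ker, map_zero]
    obtain ⟨μ, -, hμ⟩ := Ideal.IsPrime.prod_mem_iff.mp hprod
    exact hsm μ hμ
  have hμ0 : μ = 0 := by
    obtain ⟨n, hn⟩ := Module.End.mem_maxGenEigenspace _ _ _ |>.mp (hμ hvW)
    have hpow : ∀ n, ((ρ t - μ • 1) ^ n) v = (-μ) ^ n • v := by
      intro n
      induction n with
      | zero => simp
      | succ n ih =>
        rw [pow_succ', Module.End.mul_apply, ih, map_smul]
        simp only [LinearMap.sub_apply, hχ, RingHom.mem_ker.mp ht, zero_smul,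
          LinearMap.smul_apply, Module.End.one_apply, zero_sub, ← neg_smul, smul_smul, pow_succ]
    rw [hpow, smul_eq_zero, or_iff_left hv0] at hn
    simpa using eq_zero_of_pow_eq_zero hn
  subst hμ0
  refine ‹𝔪.IsPrime›.mem_of_pow_mem (finrank K V) (hWm _ fun w hw => ?_)
  have := hμ hw
  rw [Module.End.maxGenEigenspace_eq_genEigenspace_finrank, Module.End.mem_genEigenspace_nat,
    LinearMap.mem_ker] at this
  simpa using this

/-- Deligne–Serre lifting: a maximal ideal of an integral commutative ring of operators is the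
contraction of a maximal ideal of `𝒪` under an eigencharacter. -/
theorem exists_eigenvector_lift [Algebra.IsIntegral ℤ T] (𝔪 : Ideal T) [𝔪.IsMaximal]
    (h : RingHom.ker ρ ≤ 𝔪) :
    ∃ (v : V) (χ : T →+* integralClosure ℤ K) (𝔐 : Ideal (integralClosure ℤ K)),
      v ≠ 0 ∧ (∀ t, ρ t v = (χ t : K) • v) ∧ 𝔐.IsMaximal ∧ 𝔐.comap χ = 𝔪 := by
  obtain ⟨v, χ, hv0, hχ, hker⟩ := exists_eigenvector_ker_le ρ 𝔪 h
  let χ' : T →+* integralClosure ℤ K := χ.codRestrict (integralClosure ℤ K).toSubring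
    fun t => map_isIntegral_int χ (Algebra.IsIntegral.isIntegral t)
  let _ : Algebra T (integralClosure ℤ K) := χ'.toAlgebra
  have : IsScalarTower ℤ T (integralClosure ℤ K) :=
    IsScalarTower.of_algebraMap_eq' (Subsingleton.elim _ _)
  have : Algebra.IsIntegral T (integralClosure ℤ K) := Algebra.IsIntegral.tower_top (R := ℤ)
  have hle : RingHom.ker (algebraMap T (integralClosure ℤ K)) ≤ 𝔪 := fun t ht => hker
    (congrArg Subtype.val (RingHom.mem_ker.mp ht))
  obtain ⟨Q, hQ, hQc⟩ := Ideal.exists_ideal_over_maximal_of_isIntegral 𝔪 hle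
  exact ⟨v, χ', Q, hv0, hχ, hQ, hQc⟩

end FermatAgent.MF
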