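import Mathlib
import Fermat.Prelude.Def_FLTPrelim_Modularity
import Fermat.Prelude.Thm_ModularForm_sturm_bound_Gamma0

/-!
Basic linear algebra of `q`-expansion coefficients on cusp forms for `Γ₀(N)`.
-/

set_option autoImplicit false

noncomputable section

open scoped MatrixGroups
open UpperHalfPlane ModularFormClass

namespace FermatAgent.MF

variable {N : ℕ} {k : ℤ}

/-- The period `1` of `Γ₀(N)`. -/
lemma one_mem_periods (N : ℕ) :
    (1 : ℝ) ∈ (CongruenceSubgroup.Gamma0 N : Subgroup (GL (Fin 2) ℝ)).strictPeriods := by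
  simp [CongruenceSubgroup.strictPeriods_Gamma0]

/-- The `q`-coefficients are additive. -/
lemma qCoeff_add (f g : CuspForm (CongruenceSubgroup.Gamma0 N) k) (n : ℕ) :
    qCoeff (⇑(f + g)) n = qCoeff f n + qCoeff g n := by
  simp only [qCoeff, FunLike.coe_add]
  rw [ModularForm.qExpansion_add one_pos (one_mem_periods N) f g]
  simp

/-- The `q`-coefficients are linear in scalars. -/
lemma qCoeff_smul (c : ℂ) (f : CuspForm (CongruenceSubgroup.Gamma0 N) k) (n : ℕ) :
    qCoeff (⇑(c • f)) n = c * qCoeff f n := by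
  simp only [qCoeff, FunLike.coe_smul]
  rw [ModularForm.qExpansion_smul one_pos (one_mem_periods N) c f]
  simp

/-- The `n`-th coefficient as a linear functional. -/
def coeffLin (N : ℕ) (k : ℤ) (n : ℕ) :
    CuspForm (CongruenceSubgroup.Gamma0 N) k →ₗ[ℂ] ℂ where
  toFun f := qCoeff f n
  map_add' f g := qCoeff_add f g n
  map_smul' c f := qCoeff_smul c f n

/-- The linear coefficient map returns the `q`-coefficient. -/
@[simp] lemma coeffLin_apply (f : CuspForm (CongruenceSubgroup.Gamma0 N) k) (n : ℕ) :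
    coeffLin N k n f = qCoeff f n := rfl

/-- The coefficients of the zero form vanish. -/
lemma qCoeff_zero_fun (n : ℕ) :
    qCoeff (⇑(0 : CuspForm (CongruenceSubgroup.Gamma0 N) k)) n = 0 :=
  (coeffLin N k n).map_zero

/-- The `q`-coefficients commute with differences. -/
lemma qCoeff_sub (f g : CuspForm (CongruenceSubgroup.Gamma0 N) k) (n : ℕ) :
    qCoeff (⇑(f - g)) n = qCoeff f n - qCoeff g n :=
  (coeffLin N k n).map_sub f g

/-- The `q`-coefficients commute with integral multiples. -/
lemma qCoeff_zsmul (c : ℤ) (f : CuspForm (CongruenceSubgroup.Gamma0 N) k) (n : ℕ) :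
    qCoeff (⇑(c • f)) n = (c : ℂ) * qCoeff f n :=
  (map_zsmul (coeffLin N k n) c f).trans (zsmul_eq_mul _ c)

/-- The `q`-coefficients commute with finite sums. -/
lemma qCoeff_sum {ι : Type*} (s : Finset ι) (F : ι → CuspForm (CongruenceSubgroup.Gamma0 N) k)
    (n : ℕ) : qCoeff (⇑(∑ i ∈ s, F i)) n = ∑ i ∈ s, qCoeff (F i) n :=
  map_sum (coeffLin N k n) F s

/-- The constant coefficient of a cusp form is zero. -/
lemma qCoeff_index_zero (f : CuspForm (CongruenceSubgroup.Gamma0 N) k) : qCoeff f 0 = 0 :=
  CuspFormClass.qExpansion_coeff_zero f one_pos (one_mem_periods N)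

/-- The Sturm bound for weight `k` and level `N`. -/
def sturm (N : ℕ) (k : ℤ) : ℕ := (k * (CongruenceSubgroup.Gamma0 N).index).toNat / 12

/-- A cusp form whose coefficients vanish up to the Sturm bound is zero. -/
lemma eq_zero_of_qCoeff_le_sturm [NeZero N] (f : CuspForm (CongruenceSubgroup.Gamma0 N) k)
    (h : ∀ n ≤ sturm N k, qCoeff f n = 0) : f = 0 := by
  have := ModularForm.sturm_bound_Gamma0 N
    (f : ModularForm (CongruenceSubgroup.Gamma0 N) k) h
  ext z
  exact DFunLike.congr_fun this z

/-- A cusp form is determined by its `q`-coefficients. -/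
lemma ext_of_qCoeff [NeZero N] {f g : CuspForm (CongruenceSubgroup.Gamma0 N) k}
    (h : ∀ n, qCoeff f n = qCoeff g n) : f = g := by
  rw [← sub_eq_zero]
  exact eq_zero_of_qCoeff_le_sturm _ fun n _ => by rw [qCoeff_sub, h n, sub_self]

/-- Coefficients up to the Sturm bound, jointly. -/
def truncLin (N : ℕ) (k : ℤ) :
    CuspForm (CongruenceSubgroup.Gamma0 N) k →ₗ[ℂ] (Fin (sturm N k + 1) → ℂ) :=
  LinearMap.pi fun i => coeffLin N k i

/-- A cusp form is determined by finitely many of its first coefficients. -/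
lemma truncLin_injective (N : ℕ) [NeZero N] (k : ℤ) : Function.Injective (truncLin N k) := by
  rw [← LinearMap.ker_eq_bot, LinearMap.ker_eq_bot']
  exact fun f hf => eq_zero_of_qCoeff_le_sturm f fun n hn =>
    congrFun hf ⟨n, Nat.lt_succ_of_le hn⟩

instance finiteDimensional_cuspForm [NeZero N] :
    FiniteDimensional ℂ (CuspForm (CongruenceSubgroup.Gamma0 N) k) :=
  FiniteDimensional.of_injective (truncLin N k) (truncLin_injective N k)

end FermatAgent.MF
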