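import Fermat.Agent.ES.Forms.Classes
import Fermat.Agent.MF.Basic
import Fermat.Prelude.Thm_UpperHalfPlane_qExpansion_coeff_nat_mul

/-!
`Aut ℂ` acts on cusp forms for `Γ₀(N)` through their `q`-expansions: the Galois action on forms
of level `12 N` (`ES.exists_conj_form`), descended to `Γ₀(N)`.
-/

set_option autoImplicit false

noncomputable section

open scoped MatrixGroups Manifold Topology ModularForm
open UpperHalfPlane ModularFormClass Filter CongruenceSubgroup FermatAgent.ES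

namespace FermatAgent.MF

variable {N : ℕ} [NeZero N] {k : ℤ}

omit [NeZero N] in
/-- There are no cusp forms of odd weight for `Γ₀(N)`. -/
theorem eq_zero_of_odd (hodd : Odd k) (f : CuspForm (Gamma0 N) k) : f = 0 := by
  refine DFunLike.ext _ _ fun τ => ?_
  have h := congrFun (SlashInvariantFormClass.slash_action_eq f _
    ⟨-1, by simp [Gamma0_mem], rfl⟩) τ
  rw [show (⇑f ∣[k] Matrix.SpecialLinearGroup.mapGL ℝ (-1 : SL(2, ℤ))) = ⇑f ∣[k] (-1 : SL(2, ℤ))
    from rfl, ModularForm.SL_slash_apply, ModularGroup.denom_apply] at h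
  simpa [hodd.neg_one_zpow, neg_eq_iff_add_eq_zero, ← two_mul] using h

/-- `Aut ℂ` acts on the coefficients of cusp forms. -/
theorem exists_conj (f : CuspForm (Gamma0 N) k) (σ : ℂ ≃+* ℂ) :
    ∃ g : CuspForm (Gamma0 N) k, ∀ n, qCoeff g n = σ (qCoeff f n) := by
  have hz : f = 0 → ∃ g : CuspForm (Gamma0 N) k, ∀ n, qCoeff g n = σ (qCoeff f n) :=
    fun h => ⟨0, fun n => by rw [h, qCoeff_zero_fun, map_zero]⟩
  rcases Int.even_or_odd k with ⟨i, rfl⟩ | hodd
  swap
  · exact hz (eq_zero_of_odd hodd f)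
  by_cases hi : i < 0
  · exact hz (by
      refine eq_zero_of_qCoeff_le_sturm f fun n hn => ?_
      have : sturm N (i + i) = 0 := by
        rw [sturm, Int.toNat_eq_zero.mpr (mul_nonpos_of_nonpos_of_nonneg (by omega)
          (Int.natCast_nonneg _))]
      obtain rfl : n = 0 := by omega
      exact qCoeff_index_zero f)
  obtain ⟨j, rfl⟩ : ∃ j : ℕ, i = j := ⟨i.toNat, by omega⟩
  set M := 12 * N
  have hG := (goodLevel_Gamma0 N).toGalStable
  have hNM : N ∣ M := dvd_mul_left N 12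
  have hΓ : Gamma M ≤ Gamma0 N := (gamma_le_of_dvd hNM).trans hG.gamma_le
  have hk : ((j : ℤ) + j) = ((2 * j : ℕ) : ℤ) := by push_cast; ring
  have hf : IsTwist (Gamma0 N) ((2 * j : ℕ) : ℤ) 1 ⇑f := by
    rw [← hk]
    refine ⟨f.holo', fun γ => ?_,
      fun γ => (CuspFormClass.zero_at_infty_slash f _).isBoundedAtImInfty⟩
    simp only [MonoidHom.one_apply, Units.val_one, one_mul]
    exact SlashInvariantFormClass.slash_action_eq f _ ⟨γ, γ.2, rfl⟩
  obtain ⟨a, ha, hσ⟩ := exists_unit_exponent M σ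
  obtain ⟨f', hf', hexp, -⟩ := exists_conj_form (auxLevel12 N) hNM hG ha hσ hf
  have hser : ∀ {g : ℍ → ℂ}, IsTwist (Gamma0 N) ((2 * j : ℕ) : ℤ) 1 g → ∀ γ : SL(2, ℤ),
      HasExp M (g ∣[((2 * j : ℕ) : ℤ)] γ) (qExpansion (M : ℝ) (g ∣[((2 * j : ℕ) : ℤ)] γ)) :=
    fun hg γ => HasExp.exists_of_bounded (periodic_slash_of_trivial hΓ hg γ) (hg.mdiff.slash _ _)
      (hg.bdd γ)
  have hcoef : ∀ γ γ', GalRel (a : ZMod M) γ γ' → ∀ n,
      (qExpansion (M : ℝ) (f' ∣[((2 * j : ℕ) : ℤ)] γ')).coeff n =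
        σ ((qExpansion (M : ℝ) (⇑f ∣[((2 * j : ℕ) : ℤ)] γ)).coeff n) := fun γ γ' hr n => by
    have h := congrArg (fun s : LaurentSeries ℂ => s.coeff n)
      ((HasLExp.of_exp (hser hf' γ')).series_unique (hexp γ γ' hr _ (HasLExp.of_exp (hser hf γ))))
    simpa [HahnSeries.ofPowerSeries_apply_coeff] using h
  have hzero : ∀ γ' : SL(2, ℤ), IsZeroAtImInfty (f' ∣[((2 * j : ℕ) : ℤ)] γ') := fun γ' => by
    obtain ⟨γ, hr⟩ := GalRel.exists_left ha γ'
    have h := (hser hf' γ').tendsto_atImInfty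
    have h0 := tendsto_nhds_unique (hser hf γ).tendsto_atImInfty
      (by rw [← hk]; exact CuspFormClass.zero_at_infty_slash f _ :
        IsZeroAtImInfty (⇑f ∣[((2 * j : ℕ) : ℤ)] γ))
    rw [← PowerSeries.coeff_zero_eq_constantCoeff_apply] at h0 h
    rw [hcoef γ γ' hr, h0, map_zero] at h
    exact h
  let g : CuspForm (Gamma0 N) ((j : ℤ) + j) :=
    { toFun := f'
      slash_action_eq' := by
        rintro _ ⟨γ, hγ, rfl⟩
        rw [hk]
        show f' ∣[((2 * j : ℕ) : ℤ)] γ = f'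
        exact (hf'.slash ⟨γ, hγ⟩).trans (funext fun τ => by simp)
      holo' := hf'.mdiff
      zero_at_cusps' := fun {c} hc => by
        rw [Subgroup.IsArithmetic.isCusp_iff_isCusp_SL2Z] at hc
        rw [OnePoint.isZeroAt_iff_forall_SL2Z hc, hk]
        exact fun γ _ => hzero γ }
  refine ⟨g, fun n => ?_⟩
  have hq : ∀ h : CuspForm (Gamma0 N) ((j : ℤ) + j),
      qCoeff h n = (qExpansion (M : ℝ) ⇑h).coeff (M * n) := fun h => by
    rw [← mul_one (M : ℝ), UpperHalfPlane.qExpansion_coeff_nat_mul one_pos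
      (SlashInvariantFormClass.periodic_comp_ofComplex h (one_mem_periods N)) h.holo'
      (ModularFormClass.bdd_at_infty h) (Nat.pos_of_ne_zero (NeZero.ne M)),
      if_pos (dvd_mul_right M n), Nat.mul_div_cancel_left n (Nat.pos_of_ne_zero (NeZero.ne M))]
    rfl
  have h1 := hcoef 1 1 (GalRel.one _) (M * n)
  simp only [SlashAction.slash_one] at h1
  rw [hq, hq]
  exact h1

end FermatAgent.MF
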