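import Fermat.Agent.MF.Eigen
import Fermat.Prelude.Def_CuspForm_IntegralStructure
import Fermat.Prelude.Def_CuspForm_IntegralLattice
import Fermat.Prelude.Thm_CuspForm_intLattice_fg
import Fermat.Prelude.Thm_CuspForm_mem_intLattice_of_mem_heckeAlgebra

/-!
The integral lattice of cusp forms and finiteness of Hecke algebras.
-/

set_option autoImplicit false

noncomputable section

open scoped MatrixGroups
open UpperHalfPlane ModularFormClass

namespace FermatAgent.MF

variable {N : ℕ} {k : ℤ} {S : Set ℕ}

/-- The integral lattice consists of the forms with integral coefficients. -/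
lemma mem_intLattice_iff {f : CuspForm (CongruenceSubgroup.Gamma0 N) k} :
    f ∈ CuspForm.intLattice N k ↔ ∀ n : ℕ, ∃ m : ℤ, qCoeff f n = (m : ℂ) := by
  refine ⟨fun hf => ?_, fun h => Submodule.subset_span h⟩
  induction hf using Submodule.span_induction with
  | mem g hg => exact hg
  | zero => exact fun n => ⟨0, by rw [qCoeff_zero_fun]; simp⟩
  | add g g' _ _ hg hg' =>
    intro n
    obtain ⟨m, hm⟩ := hg n
    obtain ⟨m', hm'⟩ := hg' n
    exact ⟨m + m', by rw [qCoeff_add, hm, hm', Int.cast_add]⟩
  | smul c g _ hg =>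
    intro n
    obtain ⟨m, hm⟩ := hg n
    exact ⟨c * m, by rw [qCoeff_zsmul, hm, Int.cast_mul]⟩

lemma qIntegralSet_eq (N : ℕ) :
    CuspForm.qIntegralSet N = (CuspForm.intLattice N 2 : Set _) := by
  ext f
  simp only [CuspForm.qIntegralSet, Set.mem_ofPred_eq, SetLike.mem_coe, mem_intLattice_iff,
    Subring.mem_bot]
  exact forall_congr' fun n => exists_congr fun m => eq_comm

/-- The two forms of the integral structure of weight two are equivalent. -/
lemma hasIntegralBasis_iff (N : ℕ) :
    CuspForm.HasIntegralBasis N ↔ CuspForm.HasIntegralStructure N 2 := by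
  rw [CuspForm.HasIntegralBasis, CuspForm.HasIntegralStructure, qIntegralSet_eq]

variable [NeZero N]

/-- Cusp forms of weight `≤ 0` vanish. -/
lemma eq_zero_of_weight_nonpos (hk : k ≤ 0) (f : CuspForm (CongruenceSubgroup.Gamma0 N) k) :
    f = 0 := by
  refine eq_zero_of_qCoeff_le_sturm f fun n hn => ?_
  have : sturm N k = 0 := by
    rw [sturm, Int.toNat_eq_zero.mpr (mul_nonpos_of_nonpos_of_nonneg hk (Int.natCast_nonneg _))]
  obtain rfl : n = 0 := by omega
  exact qCoeff_index_zero f

/-- Restriction of Hecke operators to the integral lattice. -/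
def toLatticeEnd (hk : 1 ≤ k) (t : CuspForm.heckeAlgebra N k S) :
    CuspForm.intLattice N k →ₗ[ℤ] CuspForm.intLattice N k :=
  LinearMap.codRestrict _ ((t.1.restrictScalars ℤ).domRestrict _)
    fun x => CuspForm.mem_intLattice_of_mem_heckeAlgebra hk t.2 x.2

@[simp] lemma coe_toLatticeEnd (hk : 1 ≤ k) (t : CuspForm.heckeAlgebra N k S)
    (x : CuspForm.intLattice N k) : (toLatticeEnd hk t x).1 = t.1 x.1 := rfl

omit [NeZero N] in
/-- An endomorphism killing a spanning lattice vanishes. -/
lemma end_ext_of_intLattice (h : CuspForm.HasIntegralStructure N k)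
    {t t' : Module.End ℂ (CuspForm (CongruenceSubgroup.Gamma0 N) k)}
    (hh : ∀ x ∈ CuspForm.intLattice N k, t x = t' x) : t = t' :=
  LinearMap.ext_on (show Submodule.span ℂ _ = ⊤ from h) hh

/-- With an integral structure the Hecke algebra is a finite `ℤ`-module. -/
theorem moduleFinite_heckeAlgebra_of_integralStructure
    (h : CuspForm.HasIntegralStructure N k) :
    Module.Finite ℤ (CuspForm.heckeAlgebra N k S) := by
  rcases le_or_gt k 0 with hk | hk
  · have : Subsingleton (Module.End ℂ (CuspForm (CongruenceSubgroup.Gamma0 N) k)) :=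
      ⟨fun a b => LinearMap.ext fun f => by simp [eq_zero_of_weight_nonpos hk f]⟩
    infer_instance
  have hk : 1 ≤ k := hk
  have : Module.Finite ℤ (CuspForm.intLattice N k) :=
    Module.Finite.iff_fg.mpr (CuspForm.intLattice_fg N k)
  have : Module.IsTorsionFree ℤ (CuspForm (CongruenceSubgroup.Gamma0 N) k) := by
    have : IsAddTorsionFree (CuspForm (CongruenceSubgroup.Gamma0 N) k) :=
      ⟨fun n hn a b hab => smul_right_injective _ (Nat.cast_ne_zero (R := ℂ).mpr hn)
        (by simpa [Nat.cast_smul_eq_nsmul] using hab)⟩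
    infer_instance
  let Φ : CuspForm.heckeAlgebra N k S →ₗ[ℤ]
      (CuspForm.intLattice N k →ₗ[ℤ] CuspForm.intLattice N k) :=
    (AddMonoidHom.mk' (toLatticeEnd hk) fun a b => by ext; simp).toIntLinearMap
  refine Module.Finite.of_injective Φ fun a b hab => Subtype.ext ?_
  exact end_ext_of_intLattice h fun x hx =>
    congrArg Subtype.val (LinearMap.congr_fun hab ⟨x, hx⟩)

/-- Forms with coefficients in a given subring are stable under the Hecke algebra. -/
lemma qCoeff_mem_of_mem_heckeAlgebra (hk : 1 ≤ k) (R : Subring ℂ)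
    {t : Module.End ℂ (CuspForm (CongruenceSubgroup.Gamma0 N) k)}
    (ht : t ∈ CuspForm.heckeAlgebra N k S) {f : CuspForm (CongruenceSubgroup.Gamma0 N) k}
    (hf : ∀ n, qCoeff f n ∈ R) : ∀ n, qCoeff (⇑(t f)) n ∈ R := by
  induction ht using Algebra.adjoin_induction generalizing f with
  | mem t ht =>
    obtain ⟨ℓ, hℓ, -, rfl⟩ := exists_eq_heckeAt_of_mem_heckeGenerators ht
    intro n
    rw [qCoeff_heckeAt]
    refine R.add_mem (hf _) (R.mul_mem ?_ ?_)
    · unfold heckeConst
      split
      · exact R.zero_mem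
      · obtain ⟨j, hj⟩ := Int.eq_ofNat_of_zero_le (show 0 ≤ k - 1 by omega)
        rw [hj, zpow_natCast]
        exact R.pow_mem (natCast_mem R ℓ) j
    · split
      · exact hf _
      · exact R.zero_mem
  | algebraMap r =>
    intro n
    rw [Module.algebraMap_end_apply, qCoeff_zsmul]
    exact R.mul_mem (intCast_mem R r) (hf n)
  | add x y _ _ hx hy =>
    intro n
    rw [LinearMap.add_apply, qCoeff_add]
    exact R.add_mem (hx hf n) (hy hf n)
  | mul x y _ _ hx hy => exact hx (hy hf)

end FermatAgent.MF
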