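import Fermat.Agent.Curve.QExpJ
import Fermat.Agent.Mazur.ModFun
import Fermat.Agent.MF.Conjugation
import Fermat.Agent.MF.Lattice
import Fermat.Prelude.Def_CuspForm_IntegralStructure
import Fermat.Prelude.Def_ModularCurve_X0ModL
import Mathlib.RingTheory.PowerSeries.Ideal
import Mathlib.RingTheory.LaurentSeries

/-!
Rational cusp forms for `Γ₀(N)` have bounded denominators: the invariant function
`f (E₄ E₆ / Δ) ^ (k / 2)` is a quotient of integral series (it lies in `ℚ(j, j(Nτ))`) and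
satisfies a monic equation over `ℚ[j]`, and `ℤ((q))` is integrally closed.
-/

set_option autoImplicit false

noncomputable section

open UpperHalfPlane hiding I
open Filter Topology Polynomial ModularFormClass
open scoped MatrixGroups Manifold Classical ModularForm
open CongruenceSubgroup (Gamma0)
open ModularCurve (coeffMap qExpand jqModC)

namespace FermatAgent.MF

open FermatAgent.Curve FermatAgent.Mazur
open ModularForm (E₄ E₆)

variable {N : ℕ} [NeZero N] {f : ℍ → ℂ}

/-- Integral Laurent series among the rational ones. -/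
abbrev zQ : LaurentSeries ℤ →+* LaurentSeries ℚ := coeffMap (Int.castRingHom ℚ)

theorem coeffMapC_zQ (x : LaurentSeries ℤ) :
    coeffMapC ℚ (zQ x) = coeffMap (Int.castRingHom ℂ) x := by
  ext k; simp [coeffMapC]

theorem zQ_injective : Function.Injective zQ := fun a b hab => by
  ext k
  simpa using congrArg (fun S : LaurentSeries ℚ => S.coeff k) hab

/-- Invariant functions with rational expansion are quotients of integral series. -/
theorem exists_frac (hinv : ∀ γ ∈ Gamma0 N, ∀ τ, f (γ • τ) = f τ)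
    (hreg : ∀ k : SL(2, ℤ), (fun τ => f (k • τ)) ∈ regSub) {s : LaurentSeries ℚ}
    (hs : HasLoc (qw 1) f (coeffMapC ℚ s)) :
    ∃ u v : LaurentSeries ℤ, v ≠ 0 ∧ s * zQ v = zQ u := by
  replace hs : s ∈ jField ℚ N := mem_jField_of_invariant hinv hreg hs
  induction hs using IntermediateField.adjoin_induction with
  | mem x hx =>
    obtain ⟨d, rfl⟩ := hx
    exact ⟨qExpand ℤ d (jqModC ℤ), 1, one_ne_zero, by
      rw [map_one, mul_one, jGenL, ModularCurve.coeffMap_qExpand]
      exact congrArg _ (ModularCurve.map_jqModC _).symm⟩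
  | algebraMap c =>
    refine ⟨HahnSeries.C c.num, HahnSeries.C (c.den : ℤ), fun h => c.den_ne_zero (by
      exact_mod_cast HahnSeries.C_injective (h.trans (map_zero _).symm)), ?_⟩
    rw [ModularCurve.algebraMap_laurentSeries_eq_single, ← HahnSeries.C_apply]
    simp only [HahnSeries.C_apply, zQ, ModularCurve.coeffMap_single, HahnSeries.single_mul_single]
    simp
  | add x y _ _ hx hy =>
    obtain ⟨u, v, hv, h⟩ := hx
    obtain ⟨u', v', hv', h'⟩ := hy
    exact ⟨u * v' + u' * v, v * v', mul_ne_zero hv hv', by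
      simp only [map_add, map_mul]; linear_combination zQ v' * h + zQ v * h'⟩
  | inv x _ hx =>
    obtain ⟨u, v, hv, h⟩ := hx
    rcases eq_or_ne u 0 with rfl | hu
    · have : x = 0 := by
        rw [map_zero, mul_eq_zero] at h
        exact h.resolve_right fun h0 => hv (zQ_injective (h0.trans (map_zero _).symm))
      exact ⟨0, 1, one_ne_zero, by simp [this]⟩
    have hx0 : x ≠ 0 := fun h0 => hu (zQ_injective (by rw [← h, h0, zero_mul, map_zero]))
    exact ⟨v, u, hu, by rw [← h, inv_mul_cancel_left₀ hx0]⟩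
  | mul x y _ _ hx hy =>
    obtain ⟨u, v, hv, h⟩ := hx
    obtain ⟨u', v', hv', h'⟩ := hy
    exact ⟨u * u', v * v', mul_ne_zero hv hv', by
      simp only [map_mul]; linear_combination zQ u' * h + x * zQ v * h'⟩


/-- `ℤ((q))` is integrally closed. -/
theorem isIntegrallyClosed_laurent : IsIntegrallyClosed (LaurentSeries ℤ) :=
  isIntegrallyClosed_of_isLocalization (R := PowerSeries ℤ) (LaurentSeries ℤ)
    (Submonoid.powers PowerSeries.X)
    (powers_le_nonZeroDivisors_of_noZeroDivisors PowerSeries.X_ne_zero)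

/-- A root in the fraction field of a monic integral equation is integral. -/
theorem mem_range_of_integral {y : LaurentSeries ℚ} {u v : LaurentSeries ℤ} (hv : v ≠ 0)
    (huv : y * zQ v = zQ u) {P : Polynomial (LaurentSeries ℤ)} (hP : P.Monic)
    (h : P.eval₂ zQ y = 0) : y ∈ zQ.range := by
  have := isIntegrallyClosed_laurent
  let K := FractionRing (LaurentSeries ℤ)
  let ι : K →+* LaurentSeries ℚ := IsFractionRing.lift zQ_injective
  have hι : ∀ a, ι (algebraMap _ K a) = zQ a := IsFractionRing.lift_algebraMap zQ_injective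
  set z : K := algebraMap _ K u / algebraMap _ K v
  have hz : ι z = y := by
    rw [map_div₀, hι, hι, div_eq_iff ((map_ne_zero_iff _ zQ_injective).2 hv), huv]
  have hzi : IsIntegral (LaurentSeries ℤ) z := by
    refine ⟨P, hP, ι.injective ?_⟩
    rw [hom_eval₂, map_zero, hz, show ι.comp (algebraMap _ K) = zQ from RingHom.ext hι, h]
  obtain ⟨w, hw⟩ := IsIntegrallyClosed.isIntegral_iff.1 hzi
  exact ⟨w, by rw [← hι, hw, hz]⟩

/-- **Bounded denominators.** -/
theorem exists_int_mul (hinv : ∀ γ ∈ Gamma0 N, ∀ τ, f (γ • τ) = f τ)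
    (hreg : ∀ k : SL(2, ℤ), (fun τ => f (k • τ)) ∈ regSub) {s : LaurentSeries ℚ}
    (hs : HasLoc (qw 1) f (coeffMapC ℚ s)) :
    ∃ M : ℤ, M ≠ 0 ∧ HahnSeries.C (M : ℚ) * s ∈ zQ.range := by
  obtain ⟨p, hp⟩ := exists_monic_relation (S := regSub)
    (fun g hg hi => (mem_regSub.1 hg).2.elim fun M hb => exists_eq_eval_jFun M hg.1 hi hb) hinv hreg
  obtain ⟨φ, hφ⟩ := exists_linearForm (K := ℚ)
  obtain ⟨u, v, hv, huv⟩ := exists_frac hinv hreg hs
  set n := Fintype.card (SL(2, ℤ) ⧸ Gamma0 N)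
  have hloc : HasLoc (qw 1) (0 : ℍ → ℂ) (coeffMapC ℚ s ^ n +
      ∑ i ∈ Finset.range n, (p i).eval₂ HahnSeries.C (jqModC ℂ) * coeffMapC ℚ s ^ i) := by
    refine ((hs.pow n).add (HasLoc.sum (Finset.range n) fun i _ =>
      (hasLoc_polyEval (p i)).mul (hs.pow i))).congr_fun fun τ => ?_
    simp only [Pi.zero_apply, Pi.add_apply, Pi.pow_apply, Finset.sum_apply, Pi.mul_apply]
    exact (hp τ).symm
  have h := congrArg (coeffLinC φ) (hloc.unique (locCoord_qw one_pos) (HasLoc.const 0))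
  rw [map_zero, map_zero, map_add, map_sum, ← map_pow (coeffMapC ℚ),
    ← one_mul (coeffMapC ℚ (s ^ n)), ← map_one (HahnSeries.C : ℂ →+* LaurentSeries ℂ),
    coeffLinC_C_mul, hφ, map_one, one_mul] at h
  set Q : ℕ → ℚ[X] := fun i => (p i).sum fun e c => monomial e (φ c)
  rw [Finset.sum_congr rfl fun i _ => by rw [← map_pow (coeffMapC ℚ), coeffLinC_eval_mul]] at h
  obtain ⟨L, hL⟩ := IsLocalization.exist_integer_multiples_of_finset (nonZeroDivisors ℤ)
    ((Finset.range n).biUnion fun i => (Q i).coeffs)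
  set M : ℤ := (L : ℤ)
  have hM : M ≠ 0 := nonZeroDivisors.coe_ne_zero L
  have hQ : ∀ i ∈ Finset.range n, (C (M : ℚ) * Q i) ∈ Polynomial.lifts (Int.castRingHom ℚ) := by
    intro i hi
    rw [lifts_iff_coeff_lifts]
    intro e
    rw [coeff_C_mul]
    by_cases he : (Q i).coeff e = 0
    · exact ⟨0, by simp [he]⟩
    obtain ⟨k, hk⟩ := hL _ (Finset.mem_biUnion.2 ⟨i, hi, coeff_mem_coeffs he⟩)
    exact ⟨k, by simpa using hk⟩
  simp only [mem_lifts] at hQ
  choose! R hR using hQ
  refine ⟨M, hM, ?_⟩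
  set y : LaurentSeries ℚ := HahnSeries.C (M : ℚ) * s
  have hev : ∀ i ∈ Finset.range n, zQ ((R i).eval₂ HahnSeries.C (jqModC ℤ)) =
      HahnSeries.C (M : ℚ) * (Q i).eval₂ HahnSeries.C (jqModC ℚ) := fun i hi => by
    have e : zQ.comp HahnSeries.C = HahnSeries.C.comp (Int.castRingHom ℚ) := RingHom.ext_int _ _
    rw [hom_eval₂, e, show zQ (jqModC ℤ) = jqModC ℚ from ModularCurve.map_jqModC _,
      ← eval₂_map, hR i hi, eval₂_mul, eval₂_C]
  set P : Polynomial (LaurentSeries ℤ) := X ^ n + ∑ i ∈ Finset.range n,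
    C (HahnSeries.C (M ^ (n - i - 1)) * (R i).eval₂ HahnSeries.C (jqModC ℤ)) * X ^ i
  have hPm : P.Monic := monic_X_pow_add ((degree_sum_le _ _).trans_lt
    ((Finset.sup_lt_iff (WithBot.bot_lt_coe n)).2 fun i hi =>
      (degree_C_mul_X_pow_le i _).trans_lt (WithBot.coe_lt_coe.2 (Finset.mem_range.1 hi))))
  refine mem_range_of_integral hv (u := HahnSeries.C M * u) ?_ hPm ?_
  · rw [mul_assoc, huv, map_mul]
    congr 1
    exact (ModularCurve.coeffMap_single (Int.castRingHom ℚ) 0 M).symm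
  · have h2 : HahnSeries.C ((M : ℚ) ^ n) * (s ^ n +
        ∑ i ∈ Finset.range n, (Q i).eval₂ HahnSeries.C (jqModC ℚ) * s ^ i) = 0 := by
      rw [h, mul_zero]
    rw [← h2, eval₂_add, eval₂_X_pow, eval₂_finsetSum, mul_add, Finset.mul_sum]
    refine congrArg₂ (· + ·) (by rw [map_pow, mul_pow]) (Finset.sum_congr rfl fun i hi => ?_)
    have hin := Finset.mem_range.1 hi
    rw [eval₂_mul, eval₂_C, eval₂_X_pow, map_mul, hev i hi, mul_pow,
      show zQ (HahnSeries.C (M ^ (n - i - 1))) = HahnSeries.C ((M : ℚ) ^ (n - i - 1)) by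
        rw [← Int.cast_pow]; exact ModularCurve.coeffMap_single _ 0 _,
      show (M : ℚ) ^ n = (M : ℚ) ^ (n - i - 1) * (M : ℚ) * (M : ℚ) ^ i by
        rw [← pow_succ, ← pow_add]; congr 1; omega]
    simp only [map_mul, map_pow]
    ring

omit [NeZero N] in
/-- The `q`-expansion of a form is its expansion at `∞`. -/
theorem hasLoc_form {Γ : Subgroup (GL (Fin 2) ℝ)} {k : ℤ} {F : Type*} [FunLike F ℍ ℂ]
    [ModularFormClass F Γ k] [Fact (IsCusp OnePoint.infty Γ)] (g : F)
    (hΓ : (1 : ℝ) ∈ Γ.strictPeriods) :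
    HasLoc (qw 1) (g : ℍ → ℂ) (HahnSeries.ofPowerSeries ℤ ℂ (qExpansion 1 (g : ℍ → ℂ))) :=
  Curve.Red.hasLoc_of_hasExp fun τ => by
    have h := hasSum_qExpansion one_pos
      (by simpa using SlashInvariantFormClass.periodic_comp_ofComplex g hΓ)
      (ModularFormClass.holo g) (ModularFormClass.bdd_at_infty g) τ
    simpa [ES.qm] using h

/-- The expansion of `1 / Δ` is integral. -/
theorem exists_hasLoc_inv_discriminant :
    ∃ S : LaurentSeries ℤ, IsUnit S ∧ HasLoc (qw 1) (fun τ => (ModularForm.discriminant τ)⁻¹)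
      (coeffMap (Int.castRingHom ℂ) S) := by
  set h : ℍ → ℂ := fun τ => qw 1 τ ^ 1 * (ModularForm.discriminant τ)⁻¹
  have hper : Function.Periodic (h ∘ ofComplex) ((1 : ℝ) : ℂ) :=
    periodic_comp_ofComplex_of_vadd fun τ => by
      simp only [h]
      rw [qw_vadd_one, ← modular_T_smul, smul_eq_denom_zpow (slash_discriminant ModularGroup.T),
        ModularGroup.denom_apply]
      simp [ModularGroup.coe_T]
  have hmd : MDiff h :=
    ((mdiff_qw 1).pow 1).mul (mdiff_discriminant.inv ModularForm.discriminant_ne_zero)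
  have hb : IsBoundedAtImInfty h := by
    exact isBoundedAtImInfty_qw_div_discriminant.congr_left fun τ => by simp [h, div_eq_mul_inv]
  have hloc := hasLoc_qParam (f := fun τ => (ModularForm.discriminant τ)⁻¹) one_pos 1 (w := 1)
    hper hmd hb
  change HasLoc (qw 1) _ _ at hloc
  set D := PowerSeries.X * ModularCurve.dedekindEtaUnit.map (Int.castRingHom ℂ)
  have hd : HasLoc (qw 1) (ModularForm.discriminant : ℍ → ℂ)
      (HahnSeries.ofPowerSeries ℤ ℂ D) := by
    have h := hasLoc_form CuspForm.discriminant one_mem_strictPeriods_SL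
    rwa [CuspForm.coe_discriminant, qExpansion_discriminant] at h
  have hone := (hloc.mul hd).unique (locCoord_qw one_pos)
    ((HasLoc.const 1).congr_fun fun τ => by
      simp [ModularForm.discriminant_ne_zero τ])
  rw [map_one (HahnSeries.C : ℂ →+* LaurentSeries ℂ)] at hone
  refine ⟨HahnSeries.single (-1 : ℤ) 1 * HahnSeries.ofPowerSeries ℤ ℤ
    ModularCurve.dedekindEtaUnitInv, ?_, ?_⟩
  · refine (IsUnit.of_mul_eq_one (HahnSeries.single (1 : ℤ) 1)
      (by rw [HahnSeries.single_mul_single]; simp)).mul (IsUnit.map _ ?_)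
    exact IsUnit.of_mul_eq_one _
      ((mul_comm _ _).trans ModularCurve.dedekindEtaUnit_mul_inv)
  convert hloc using 1
  rw [map_mul, ModularCurve.coeffMap_single, ModularCurve.coeffMap_ofPowerSeries, map_one]
  refine mul_right_cancel₀ (right_ne_zero_of_mul_eq_one hone) ?_
  rw [hone, map_mul, HahnSeries.ofPowerSeries_X]
  rw [mul_mul_mul_comm, HahnSeries.single_mul_single, ← map_mul, ← map_mul,
    mul_comm ModularCurve.dedekindEtaUnitInv, ModularCurve.dedekindEtaUnit_mul_inv, map_one,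
    map_one]
  simp

/-- `E₆` has an integral expansion. -/
theorem qExpansion_E6_mem : ∃ e : PowerSeries ℤ, qExpansion 1 (E₆ : ℍ → ℂ) =
    e.map (Int.castRingHom ℂ) := by
  refine ⟨PowerSeries.mk fun n => if n = 0 then 1 else -504 * ArithmeticFunction.sigma 5 n, ?_⟩
  ext n
  rw [EisensteinSeries.E_qExpansion_coeff _ ⟨3, rfl⟩, PowerSeries.coeff_map, PowerSeries.coeff_mk]
  split
  · simp
  · norm_num [show _root_.bernoulli 6 = 1 / 42 by decide +kernel]

/-- A rational cusp form is a multiple of an integral one. -/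
theorem exists_smul_mem_intLattice {k : ℤ} (f : CuspForm (Gamma0 N) k)
    (hf : ∀ n, ∃ q : ℚ, qCoeff f n = q) :
    ∃ M : ℤ, M ≠ 0 ∧ M • f ∈ CuspForm.intLattice N k := by
  have h0 : f = 0 → ∃ M : ℤ, M ≠ 0 ∧ M • f ∈ CuspForm.intLattice N k := fun h =>
    ⟨1, one_ne_zero, by rw [h, smul_zero]; exact zero_mem _⟩
  rcases le_or_gt k 0 with hk | hk
  · exact h0 (eq_zero_of_weight_nonpos hk f)
  rcases Int.even_or_odd k with ⟨i, rfl⟩ | hodd
  swap
  · exact h0 (eq_zero_of_odd hodd f)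
  obtain ⟨i, rfl⟩ : ∃ j : ℕ, i = j := ⟨i.toNat, by omega⟩
  set R : ℍ → ℂ := (E₄ : ℍ → ℂ) * (E₆ : ℍ → ℂ) * fun τ => (ModularForm.discriminant τ)⁻¹
  obtain ⟨S, hSu, hS⟩ := exists_hasLoc_inv_discriminant
  obtain ⟨e6, he6⟩ := qExpansion_E6_mem
  set r : LaurentSeries ℤ := HahnSeries.ofPowerSeries ℤ ℤ (ModularCurve.eisenstein4 * e6) * S
  have hR : HasLoc (qw 1) R (coeffMap (Int.castRingHom ℂ) r) := by
    have h := ((hasLoc_form E₄ one_mem_strictPeriods_SL).mul
      (hasLoc_form E₆ one_mem_strictPeriods_SL)).mul hS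
    rw [qExpansion_E4, he6, ← map_mul (HahnSeries.ofPowerSeries ℤ ℂ), ← map_mul,
      ← ModularCurve.coeffMap_ofPowerSeries, ← map_mul] at h
    exact h
  have hR2 : ∀ (γ : SL(2, ℤ)) (τ : ℍ), R (γ • τ) = denom γ τ ^ (-2 : ℤ) * R τ := fun γ τ => by
    simp only [R, Pi.mul_apply]
    rw [smul_eq_denom_zpow (slash_E γ E₄), smul_eq_denom_zpow (slash_E γ E₆),
      smul_eq_denom_zpow (slash_discriminant γ)]
    have := denom_ne_zero (γ : GL (Fin 2) ℝ) τ
    have := ModularForm.discriminant_ne_zero τ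
    field_simp
  set F : ℍ → ℂ := (f : ℍ → ℂ) * R ^ i
  have hslash : ∀ (γ : SL(2, ℤ)) (τ : ℍ),
      F (γ • τ) = (⇑f ∣[((i : ℤ) + i)] γ) τ * R τ ^ i := fun γ τ => by
    simp only [F, Pi.mul_apply, Pi.pow_apply, hR2, ModularForm.SL_slash_apply, mul_pow]
    rw [← zpow_natCast (denom (γ : GL (Fin 2) ℝ) τ ^ (-2 : ℤ)), ← zpow_mul,
      show (-2 : ℤ) * i = -((i : ℤ) + i) by ring, mul_assoc]
  have hinv : ∀ γ ∈ Gamma0 N, ∀ τ, F (γ • τ) = F τ := fun γ hγ τ => by
    rw [hslash, show ⇑f ∣[((i : ℤ) + i)] γ = ⇑f from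
      SlashInvariantFormClass.slash_action_eq f _ ⟨γ, hγ, rfl⟩]
    rfl
  have hRmem : R ∈ regSub := by
    refine ⟨?_, exists_bounded_of_hasLoc (w := 1) (P := coeffMap (Int.castRingHom ℂ) r)
      (by simpa using hR)⟩
    exact ((ModularFormClass.holo E₄).mul (ModularFormClass.holo E₆)).mul
      (mdiff_discriminant.inv ModularForm.discriminant_ne_zero)
  have hreg : ∀ γ : SL(2, ℤ), (fun τ => F (γ • τ)) ∈ regSub := fun γ => by
    rw [show (fun τ => F (γ • τ)) = (⇑f ∣[((i : ℤ) + i)] γ) * R ^ i from funext (hslash γ)]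
    refine regSub.mul_mem ⟨f.holo'.slash _ _, 0, ?_⟩ (pow_mem hRmem i)
    simpa using (CuspFormClass.zero_at_infty_slash f γ).isBoundedAtImInfty
  choose a ha using hf
  set s₀ : LaurentSeries ℚ := HahnSeries.ofPowerSeries ℤ ℚ (PowerSeries.mk a)
  have hs₀ : HasLoc (qw 1) (f : ℍ → ℂ) (coeffMapC ℚ s₀) := by
    have h := hasLoc_form f (one_mem_periods N)
    rw [show qExpansion 1 (f : ℍ → ℂ) = (PowerSeries.mk a).map (algebraMap ℚ ℂ) from
      PowerSeries.ext fun n => by
        rw [PowerSeries.coeff_map, PowerSeries.coeff_mk]; exact ha n,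
      ← ModularCurve.coeffMap_ofPowerSeries] at h
    exact h
  have hs := hs₀.mul (hR.pow i)
  rw [← coeffMapC_zQ, ← map_pow, ← map_mul] at hs
  obtain ⟨M, hM, z, hz⟩ := exists_int_mul hinv hreg hs
  have hr : IsUnit r := by
    have h1 : IsUnit (ModularCurve.eisenstein4 * e6) := by
      rw [PowerSeries.isUnit_iff_constantCoeff, map_mul]
      have h6 : PowerSeries.constantCoeff e6 = 1 := by
        have h := congrArg (PowerSeries.coeff 0) he6
        rw [EisensteinSeries.E_qExpansion_coeff _ ⟨3, rfl⟩, if_pos rfl,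
          PowerSeries.coeff_map, eq_intCast] at h
        rw [← PowerSeries.coeff_zero_eq_constantCoeff_apply]
        exact_mod_cast h.symm
      rw [h6, mul_one]
      simp [ModularCurve.eisenstein4]
    exact (h1.map (HahnSeries.ofPowerSeries ℤ ℤ)).mul hSu
  obtain ⟨w, hw⟩ := (hr.pow i).exists_right_inv
  refine ⟨M, hM, mem_intLattice_iff.2 fun n => ⟨(z * w).coeff n, ?_⟩⟩
  have hMs : zQ (z * w) = HahnSeries.C (M : ℚ) * s₀ := by
    have h5 : zQ r ^ i * zQ w = 1 := by rw [← map_pow, ← map_mul, hw, map_one]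
    rw [map_mul, hz, mul_assoc, mul_assoc, h5, mul_one]
  have h4 := congrArg (fun T : LaurentSeries ℚ => T.coeff (n : ℤ)) hMs
  rw [qCoeff_zsmul, ha]
  simp only [s₀, HahnSeries.C_mul_eq_smul, HahnSeries.coeff_smul, smul_eq_mul,
    HahnSeries.ofPowerSeries_apply_coeff, PowerSeries.coeff_mk, ModularCurve.coeffMap_coeff,
    eq_intCast] at h4
  exact_mod_cast h4.symm

end FermatAgent.MF
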