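import Fermat.Agent.MF.GaloisC
import Fermat.Agent.MF.BoundedDenom
import Fermat.Agent.MF.Lattice

/-!
The integral structure on `S_k(Γ₀(N))` for every level and weight.
-/

set_option autoImplicit false

noncomputable section

open scoped MatrixGroups
open UpperHalfPlane ModularFormClass

namespace FermatAgent.MF

variable {N : ℕ} [NeZero N] {k : ℤ}

/-- A cusp form with rational coefficients up to the Sturm bound has rational coefficients. -/
theorem rational_of_rational_le_sturm (f : CuspForm (CongruenceSubgroup.Gamma0 N) k)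
    (h : ∀ n ≤ sturm N k, ∃ q : ℚ, qCoeff f n = q) : ∀ n, ∃ q : ℚ, qCoeff f n = q := by
  intro n
  refine exists_ratCast_eq_of_fixed fun σ => ?_
  obtain ⟨g, hg⟩ := exists_conj f σ
  have : g = f := by
    rw [← sub_eq_zero]
    refine eq_zero_of_qCoeff_le_sturm _ fun m hm => ?_
    obtain ⟨q, hq⟩ := h m hm
    rw [qCoeff_sub, hg, hq, map_ratCast, sub_self]
  have h' := hg n
  rw [this] at h'
  exact h'.symm

/-- **Integral structure**: `S_k(Γ₀(N))` is spanned by forms with integral `q`-expansion. The
conjugate of a form is a form, so by Sturm's bound the forms with rational coefficients span, and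
their denominators are bounded. -/
theorem hasIntegralStructure (N : ℕ) [NeZero N] (k : ℤ) : CuspForm.HasIntegralStructure N k := by
  rw [CuspForm.HasIntegralStructure, eq_top_iff]
  intro f _
  suffices truncLin N k f ∈ Submodule.map (truncLin N k)
      (Submodule.span ℂ (CuspForm.intLattice N k : Set _)) by
    obtain ⟨g, hg, he⟩ := this
    exact truncLin_injective N k he ▸ hg
  have hW : ∀ σ : ℂ ≃+* ℂ, ∀ w ∈ LinearMap.range (truncLin N k),
      (fun i => σ (w i)) ∈ LinearMap.range (truncLin N k) := by
    rintro σ _ ⟨g, rfl⟩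
    obtain ⟨g', hg'⟩ := exists_conj g σ
    exact ⟨g', funext fun i => hg' i⟩
  have hrange : truncLin N k f ∈ LinearMap.range (truncLin N k) := LinearMap.mem_range_self _ _
  rw [span_rational_of_stable _ hW] at hrange
  refine Submodule.span_le.mpr ?_ hrange
  rintro _ ⟨⟨g, rfl⟩, hrat⟩
  have hg : ∀ n, ∃ q : ℚ, qCoeff g n = q :=
    rational_of_rational_le_sturm g fun n hn => hrat ⟨n, Nat.lt_succ_of_le hn⟩
  obtain ⟨M, hM, hmem⟩ := exists_smul_mem_intLattice g hg
  refine Submodule.mem_map_of_mem ?_
  have h2 : g = (M : ℂ)⁻¹ • (M • g) := by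
    rw [← Int.cast_smul_eq_zsmul ℂ M g, inv_smul_smul₀ (Int.cast_ne_zero.mpr hM)]
  rw [h2]
  exact Submodule.smul_mem _ _ (Submodule.subset_span hmem)

/-- Every Hecke algebra is a finite `ℤ`-module. -/
theorem moduleFinite_heckeAlgebra (N : ℕ) [NeZero N] (k : ℤ) (S : Set ℕ) :
    Module.Finite ℤ (CuspForm.heckeAlgebra N k S) :=
  moduleFinite_heckeAlgebra_of_integralStructure (hasIntegralStructure N k)

end FermatAgent.MF
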