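import Mathlib.Analysis.Complex.UpperHalfPlane.Measure
import Mathlib.Analysis.SpecialFunctions.ImproperIntegrals
import Mathlib.MeasureTheory.Measure.Lebesgue.Complex
import Mathlib.NumberTheory.Modular
import Mathlib.NumberTheory.ModularForms.CongruenceSubgroups
import Mathlib.NumberTheory.ModularForms.ProperlyDiscontinuous

/-!
A measurable weight `w` on the upper half-plane with `∑_{γ ∈ Γ} w (γ τ) = 1` and finite integral,
for a subgroup `Γ` of finite index in `SL(2, ℤ)`. It replaces a fundamental domain.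
-/

set_option autoImplicit false

noncomputable section

open scoped MatrixGroups Modular ENNReal
open UpperHalfPlane MeasureTheory

namespace FermatAgent.MF.Petersson

/-- There are countably many integral matrices. -/
lemma countable_matrix : Countable (Matrix (Fin 2) (Fin 2) ℤ) :=
  inferInstanceAs (Countable (Fin 2 → Fin 2 → ℤ))

lemma countable_sl : Countable SL(2, ℤ) :=
  have := countable_matrix
  Subtype.countable

attribute [local instance] countable_matrix countable_sl

lemma countable_sl_quotient (Γ : Subgroup SL(2, ℤ)) : Countable (SL(2, ℤ) ⧸ Γ) :=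
  QuotientGroup.mk_surjective.countable

attribute [local instance] countable_sl_quotient

/-- The number of translates of `τ` in the fundamental domain. -/
def fdCount (τ : ℍ) : ℝ≥0∞ := ∑' g : SL(2, ℤ), ModularGroup.fd.indicator (fun _ => 1) (g • τ)

/-- The indicator of the fundamental domain, divided by the number of translates in it. -/
def fdWeight (τ : ℍ) : ℝ≥0∞ := ModularGroup.fd.indicator (fun τ => (fdCount τ)⁻¹) τ

lemma measurable_sl_smul (g : SL(2, ℤ)) : Measurable fun τ : ℍ => g • τ := by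
  simp only [ModularGroup.sl_moeb]
  exact (continuous_const_smul _).measurable

lemma measurableSet_fd : MeasurableSet (ModularGroup.fd : Set ℍ) :=
  ModularGroup.isClosed_fd.measurableSet

lemma fdCount_smul (h : SL(2, ℤ)) (τ : ℍ) : fdCount (h • τ) = fdCount τ := by
  simp only [fdCount, ← mul_smul]
  exact (Equiv.mulRight h).tsum_eq fun g => ModularGroup.fd.indicator (fun _ => (1 : ℝ≥0∞)) (g • τ)

lemma finite_smul_mem_fd (τ : ℍ) : {g : SL(2, ℤ) | g • τ ∈ ModularGroup.fd}.Finite := by
  obtain ⟨g₀, hg₀⟩ := ModularGroup.exists_max_im τ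
  have h := (properlyDiscontinuousSL2ZRange.finite_disjoint_inter_image
    (isCompact_singleton (x := τ))
    (ModularGroup.isCompact_truncatedFundamentalDomain (g₀ • τ).im))
  refine (h.preimage (f := fun g : SL(2, ℤ) =>
    (⟨Matrix.SpecialLinearGroup.mapGL ℝ g, g, rfl⟩ : 𝒮ℒ)) ?_).subset ?_
  · intro a _ b _ hab
    exact Matrix.SpecialLinearGroup.mapGL_injective (congrArg Subtype.val hab)
  · intro g hg
    exact ⟨g • τ, ⟨τ, rfl, rfl⟩, hg, hg₀ g⟩

lemma fdCount_ne_top (τ : ℍ) : fdCount τ ≠ ∞ := by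
  rw [fdCount, tsum_eq_sum (s := (finite_smul_mem_fd τ).toFinset) fun g hg =>
    Set.indicator_of_notMem (by simpa using hg) _]
  exact ENNReal.sum_ne_top.mpr fun g _ =>
    ne_top_of_le_ne_top ENNReal.one_ne_top (Set.indicator_le_self' (fun _ _ => zero_le) _)

lemma one_le_fdCount (τ : ℍ) : 1 ≤ fdCount τ := by
  obtain ⟨g, hg⟩ := ModularGroup.exists_smul_mem_fd τ
  refine le_trans ?_ (ENNReal.le_tsum g)
  rw [Set.indicator_of_mem hg]

lemma fdWeight_le_one (τ : ℍ) : fdWeight τ ≤ 1 := by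
  rw [fdWeight]
  exact Set.indicator_apply_le' (fun _ => ENNReal.inv_le_one.mpr (one_le_fdCount τ))
    fun _ => zero_le

lemma fdWeight_pos {τ : ℍ} (h : τ ∈ ModularGroup.fd) : 0 < fdWeight τ := by
  rw [fdWeight, Set.indicator_of_mem h]
  exact ENNReal.inv_pos.mpr (fdCount_ne_top τ)

lemma measurable_fdCount : Measurable fdCount :=
  Measurable.tsum fun g =>
    (measurable_const.indicator measurableSet_fd).comp (measurable_sl_smul g)

lemma measurable_fdWeight : Measurable fdWeight :=
  measurable_fdCount.inv.indicator measurableSet_fd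

lemma tsum_fdWeight (τ : ℍ) : ∑' g : SL(2, ℤ), fdWeight (g • τ) = 1 := by
  have h : ∀ g : SL(2, ℤ), fdWeight (g • τ) =
      ModularGroup.fd.indicator (fun _ => (1 : ℝ≥0∞)) (g • τ) * (fdCount τ)⁻¹ := by
    intro g
    by_cases hg : g • τ ∈ ModularGroup.fd
    · rw [fdWeight, Set.indicator_of_mem hg, Set.indicator_of_mem hg, fdCount_smul, one_mul]
    · rw [fdWeight, Set.indicator_of_notMem hg, Set.indicator_of_notMem hg, zero_mul]
  rw [tsum_congr h, ENNReal.tsum_mul_right]
  exact ENNReal.mul_inv_cancel (zero_lt_one.trans_le (one_le_fdCount τ)).ne' (fdCount_ne_top τ)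

lemma volume_fd_lt_top : volume (ModularGroup.fd : Set ℍ) < ∞ := by
  rw [volume_eq_lintegral]
  have hsub : ((↑) '' ModularGroup.fd : Set ℂ) ⊆
      Complex.measurableEquivRealProd ⁻¹' (Set.Icc (-(1 / 2) : ℝ) (1 / 2) ×ˢ Set.Ioi (1 / 2)) := by
    rintro _ ⟨τ, hτ, rfl⟩
    have h3 := ModularGroup.three_le_four_mul_im_sq_of_mem_fd hτ
    refine ⟨abs_le.mp hτ.2, ?_⟩
    show (1 / 2 : ℝ) < τ.im
    nlinarith [τ.im_pos]
  refine lt_of_le_of_lt (lintegral_mono_set hsub) ?_
  set F : ℝ × ℝ → ℝ≥0∞ := fun p => ↑((1 / ‖p.2‖₊) ^ 2 : NNReal) with hF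
  have hFm : Measurable F := by fun_prop
  show ∫⁻ z in Complex.measurableEquivRealProd ⁻¹' _, F (Complex.measurableEquivRealProd z) < ∞
  rw [Complex.volume_preserving_equiv_real_prod.setLIntegral_comp_preimage
    (measurableSet_Icc.prod measurableSet_Ioi) hFm, Measure.volume_eq_prod,
    setLIntegral_prod _ hFm.aemeasurable]
  simp only [hF]
  rw [setLIntegral_const]
  refine ENNReal.mul_lt_top ?_ measure_Icc_lt_top
  have h := (integrableOn_Ioi_rpow_of_lt (show (-2 : ℝ) < -1 by norm_num)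
    (show (0 : ℝ) < 1 / 2 by norm_num)).hasFiniteIntegral
  refine lt_of_le_of_lt (le_of_eq (setLIntegral_congr_fun measurableSet_Ioi fun y hy => ?_)) h
  have hy0 : 0 < y := lt_trans (by norm_num) hy
  rw [Real.enorm_eq_ofReal (Real.rpow_nonneg hy0.le _), ← ENNReal.ofReal_coe_nnreal]
  congr 1
  simp [Real.rpow_neg hy0.le, abs_of_pos hy0]

lemma lintegral_fdWeight_lt_top : ∫⁻ τ, fdWeight τ < ∞ := by
  refine lt_of_le_of_lt (lintegral_mono fun τ => ?_) (lt_of_le_of_lt
    (le_of_eq (lintegral_indicator_one measurableSet_fd)) volume_fd_lt_top)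
  by_cases h : τ ∈ ModularGroup.fd
  · rw [Set.indicator_of_mem h]
    exact fdWeight_le_one τ
  · rw [fdWeight, Set.indicator_of_notMem h, Set.indicator_of_notMem h]

variable (Γ : Subgroup SL(2, ℤ))

/-- The weight attached to `Γ`. -/
def weight (τ : ℍ) : ℝ≥0∞ := ∑' x : SL(2, ℤ) ⧸ Γ, fdWeight (x.out • τ)

/-- The weight of a subgroup is measurable. -/
lemma measurable_weight : Measurable (weight Γ) :=
  Measurable.tsum fun x => measurable_fdWeight.comp (measurable_sl_smul x.out)

/-- The weight is positive on a translate of the standard fundamental domain. -/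
lemma weight_pos {τ : ℍ} (h : (QuotientGroup.mk (1 : SL(2, ℤ)) : SL(2, ℤ) ⧸ Γ).out • τ ∈
    ModularGroup.fd) : 0 < weight Γ τ :=
  lt_of_lt_of_le (fdWeight_pos h)
    (ENNReal.le_tsum (f := fun x : SL(2, ℤ) ⧸ Γ => fdWeight (x.out • τ)) _)

/-- `weight` sums to one over `Γ`. -/
theorem tsum_weight (τ : ℍ) : ∑' γ : Γ, weight Γ ((γ : SL(2, ℤ)) • τ) = 1 := by
  rw [← tsum_fdWeight τ]
  simp only [weight, ← mul_smul]
  rw [ENNReal.tsum_comm, ← ENNReal.tsum_prod
    (f := fun (x : SL(2, ℤ) ⧸ Γ) (γ : Γ) => fdWeight ((x.out * γ) • τ))]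
  refine Function.Injective.tsum_eq (g := fun p : (SL(2, ℤ) ⧸ Γ) × Γ => p.1.out * (p.2 : SL(2, ℤ)))
    (f := fun g => fdWeight (g • τ)) ?_ ?_
  · rintro ⟨x, γ⟩ ⟨y, δ⟩ h
    have hxy : x = y := by
      have := congrArg (QuotientGroup.mk (s := Γ)) h
      rwa [QuotientGroup.mk_mul_of_mem _ γ.2, QuotientGroup.mk_mul_of_mem _ δ.2,
        QuotientGroup.out_eq', QuotientGroup.out_eq'] at this
    subst hxy
    exact Prod.ext rfl (Subtype.ext (mul_left_cancel h))
  · intro g _
    obtain ⟨h, hh⟩ := QuotientGroup.mk_out_eq_mul Γ g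
    exact ⟨(QuotientGroup.mk g, h⁻¹), by
      show (QuotientGroup.mk g : SL(2, ℤ) ⧸ Γ).out * ((h⁻¹ : Γ) : SL(2, ℤ)) = g
      rw [hh, InvMemClass.coe_inv, mul_inv_cancel_right]⟩

variable [Γ.FiniteIndex]

/-- The weight is finite at every point. -/
lemma weight_ne_top (τ : ℍ) : weight Γ τ ≠ ∞ := by
  have : Fintype (SL(2, ℤ) ⧸ Γ) := Subgroup.fintypeQuotientOfFiniteIndex
  rw [weight, tsum_fintype]
  exact ENNReal.sum_ne_top.mpr fun x _ =>
    ne_top_of_le_ne_top ENNReal.one_ne_top (fdWeight_le_one _)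

/-- The weight of a subgroup of finite index has finite integral: the quotient has finite volume. -/
theorem lintegral_weight_lt_top : ∫⁻ τ, weight Γ τ < ∞ := by
  have : Fintype (SL(2, ℤ) ⧸ Γ) := Subgroup.fintypeQuotientOfFiniteIndex
  simp only [weight, tsum_fintype]
  rw [lintegral_finsetSum (s := Finset.univ) (f := fun (x : SL(2, ℤ) ⧸ Γ) τ => fdWeight (x.out • τ))
    fun x _ => measurable_fdWeight.comp (measurable_sl_smul x.out)]
  refine ENNReal.sum_lt_top.mpr fun x _ => ?_
  simp only [ModularGroup.sl_moeb]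
  rw [(measurePreserving_smul _ volume).lintegral_comp measurable_fdWeight]
  exact lintegral_fdWeight_lt_top

end FermatAgent.MF.Petersson
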