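import Fermat.Agent.HM.HeckeCosets
import Fermat.Agent.MF.PeterssonWeight
import Mathlib.NumberTheory.ModularForms.Bounds

/-!
The Petersson product on `S₂(Γ₀(N))` and the symmetry of `T_q`, `q ∤ N`.

The product is `∫ w · conj f · g · y²` for the weight `w` of `PeterssonWeight`. Inserting
`∑_γ w (γ A τ) = 1` turns `⟨f, T g⟩` into a sum over all integral matrices `A` of determinant `q`
with `N ∣ c`, which the substitution `τ ↦ adj A • τ` makes symmetric.
-/

set_option autoImplicit false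

noncomputable section

open scoped MatrixGroups ModularForm ENNReal ComplexConjugate
open UpperHalfPlane MeasureTheory CongruenceSubgroup Matrix.SpecialLinearGroup
open FermatAgent.HM
open P2MW.S_ModularForm_heckeT_slash_eq_self_of_mem_Gamma0.ModularForm.HeckeSlashInvariance

namespace FermatAgent.MF.Petersson

variable (N q : ℕ) [Fact q.Prime]

/-- Integral matrices of determinant `q` with lower left entry divisible by `N`. -/
abbrev HeckeMat : Type :=
  {A : Matrix (Fin 2) (Fin 2) ℤ // A.det = (q : ℤ) ∧ (N : ℤ) ∣ A 1 0}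

variable {N q}

lemma HeckeMat.det_ne_zero (A : HeckeMat N q) : A.1.det ≠ 0 := by
  rw [A.2.1]
  exact_mod_cast (Fact.out : q.Prime).ne_zero

/-- A matrix in `GL(2, ℝ)`. -/
def HeckeMat.gl (A : HeckeMat N q) : GL (Fin 2) ℝ := intGL A.1 A.det_ne_zero

lemma HeckeMat.det_gl (A : HeckeMat N q) : (A.gl.det.val : ℝ) = q := by
  rw [Matrix.GeneralLinearGroup.val_det_apply, Matrix.det_fin_two]
  have h := A.2.1
  rw [Matrix.det_fin_two] at h
  simp only [HeckeMat.gl, val_intGL]
  exact_mod_cast h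

lemma HeckeMat.det_gl_pos (A : HeckeMat N q) : 0 < (A.gl.det.val : ℝ) := by
  rw [A.det_gl]
  exact Nat.cast_pos.mpr (Fact.out : q.Prime).pos

/-- The adjugate. -/
def HeckeMat.adj (A : HeckeMat N q) : HeckeMat N q :=
  ⟨A.1.adjugate, by
    refine ⟨?_, ?_⟩
    · rw [Matrix.det_adjugate, Fintype.card_fin]
      simpa using A.2.1
    · rw [Matrix.adjugate_fin_two]
      simpa using A.2.2⟩

omit [Fact (Nat.Prime q)] in
/-- The adjugate of the adjugate is the matrix itself. -/
lemma HeckeMat.adj_adj (A : HeckeMat N q) : A.adj.adj = A := by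
  apply Subtype.ext
  show A.1.adjugate.adjugate = A.1
  rw [Matrix.adjugate_fin_two, Matrix.adjugate_fin_two]
  ext i j
  fin_cases i <;> fin_cases j <;> simp

/-- The adjugate as an involution. -/
def adjEquiv : HeckeMat N q ≃ HeckeMat N q :=
  ⟨HeckeMat.adj, HeckeMat.adj, HeckeMat.adj_adj, HeckeMat.adj_adj⟩

lemma scalar_ne_zero : ((q : ℤ) • (1 : Matrix (Fin 2) (Fin 2) ℤ)).det ≠ 0 := by
  rw [Matrix.det_smul, Matrix.det_one, mul_one]
  exact pow_ne_zero _ (by exact_mod_cast (Fact.out : q.Prime).ne_zero)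

/-- A Hecke matrix times its adjugate is the scalar `q`. -/
lemma HeckeMat.gl_mul_adj (A : HeckeMat N q) :
    A.gl * A.adj.gl = intGL ((q : ℤ) • (1 : Matrix (Fin 2) (Fin 2) ℤ)) scalar_ne_zero := by
  rw [HeckeMat.gl, HeckeMat.gl, ← intGL_mul]
  exact intGL_congr (by rw [HeckeMat.adj, Matrix.mul_adjugate, A.2.1]) _

/-- The image of an integral matrix acts as that matrix. -/
lemma mapGL_smul (γ : SL(2, ℤ)) (τ : ℍ) : mapGL ℝ γ • τ = γ • τ := rfl

variable (N) in
/-- The weight of `Γ₀(N)` as a real function. -/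
def wR (τ : ℍ) : ℝ := (weight (Gamma0 N) τ).toReal

/-- The weight is nonnegative. -/
lemma wR_nonneg (τ : ℍ) : 0 ≤ wR N τ := ENNReal.toReal_nonneg

/-- The weight is measurable. -/
@[fun_prop]
lemma measurable_wR : Measurable (wR N) := (measurable_weight _).ennreal_toReal

/-- The Petersson product. -/
def pet (N : ℕ) [NeZero N] (f g : ℍ → ℂ) : ℂ := ∫ τ, (wR N τ : ℂ) * petersson 2 f g τ

/-- The term attached to a matrix. -/
def term (f g : ℍ → ℂ) (A : HeckeMat N q) (τ : ℍ) : ℂ :=
  ((wR N τ * wR N (A.gl • τ) : ℝ) : ℂ) * petersson 2 f (g ∣[(2 : ℤ)] A.gl) τ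

/-- The integrand of translates is the translate of the integrand, in weight two. -/
lemma petersson_slash_two (f g : ℍ → ℂ) (A : HeckeMat N q) (τ : ℍ) :
    petersson 2 (f ∣[(2 : ℤ)] A.gl) (g ∣[(2 : ℤ)] A.gl) τ = petersson 2 f g (A.gl • τ) := by
  rw [petersson_slash, UpperHalfPlane.σ, if_pos A.det_gl_pos]
  simp

lemma term_adj_smul (f g : ℍ → ℂ) (A : HeckeMat N q) (σ : ℍ) :
    term f g A (A.adj.gl • σ) = conj (term g f A.adj σ) := by
  have hA : A.gl • A.adj.gl • σ = σ := by
    rw [← mul_smul, A.gl_mul_adj, intGL_scalar_smul (Fact.out : q.Prime).ne_zero]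
  simp only [term, hA, map_mul, Complex.conj_ofReal]
  rw [← petersson_slash_two f (g ∣[(2 : ℤ)] A.gl) A.adj σ, ← SlashAction.slash_mul, A.gl_mul_adj,
    slash_scalar_two (Fact.out : q.Prime).ne_zero, petersson_symm 2 g (f ∣[(2 : ℤ)] A.adj.gl) σ,
    mul_comm (wR N σ)]

lemma integral_term_adj (f g : ℍ → ℂ) (A : HeckeMat N q) :
    ∫ τ, term f g A τ = conj (∫ τ, term g f A.adj τ) := by
  rw [← integral_conj, ← (measurePreserving_smul A.adj.gl volume).integral_comp
    (measurableEmbedding_const_smul _) (term f g A)]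
  exact integral_congr_ae (Filter.Eventually.of_forall fun σ => term_adj_smul f g A σ)

lemma norm_petersson_le (f h : ℍ → ℂ) (τ : ℍ) :
    ‖petersson 2 f h τ‖ ≤ ‖petersson 2 f f τ‖ + ‖petersson 2 h h τ‖ := by
  simp only [petersson, norm_mul, Complex.norm_conj, ← add_mul]
  refine mul_le_mul_of_nonneg_right ?_ (norm_nonneg _)
  nlinarith [sq_nonneg (‖f τ‖ - ‖h τ‖), norm_nonneg (f τ), norm_nonneg (h τ)]

variable (f g : CuspForm (Gamma0 N) 2)

lemma continuous_slash (A : GL (Fin 2) ℝ) : Continuous ((g : ℍ → ℂ) ∣[(2 : ℤ)] A) :=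
  ((CuspFormClass.holo g).slash 2 A).continuous

lemma measurable_term (A : HeckeMat N q) : Measurable (term f g A) := by
  refine Measurable.mul ?_ (petersson_continuous 2 (CuspFormClass.holo f).continuous
    (continuous_slash g _)).measurable
  exact Complex.measurable_ofReal.comp (measurable_wR.mul
    (measurable_wR.comp (continuous_const_smul _).measurable))

/-- Parametrisation of the matrices by representatives and `Γ₀(N)`. -/
def cosetMap (p : OnePoint (ZMod q) × Gamma0 N) : HeckeMat N q :=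
  ⟨((p.2 : SL(2, ℤ)) : Matrix (Fin 2) (Fin 2) ℤ) * repMat q p.1, by
    refine ⟨by rw [Matrix.det_mul, det_coe, one_mul, det_repMat], ?_⟩
    have hc := (ZMod.intCast_zmod_eq_zero_iff_dvd _ _).mp (Gamma0_mem.mp p.2.2)
    have h10 : (N : ℤ) ∣ repMat q p.1 1 0 := by induction p.1 using OnePoint.rec <;> simp
    simp only [Matrix.mul_apply, Fin.sum_univ_two]
    exact dvd_add (hc.mul_right _) (h10.mul_left _)⟩

/-- The representatives times `Γ₀(N)` parametrise the Hecke matrices bijectively. -/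
lemma cosetMap_bijective (hqN : ¬ q ∣ N) : Function.Bijective (cosetMap (N := N) (q := q)) := by
  constructor
  · rintro ⟨x, γ⟩ ⟨y, δ⟩ h
    have h' : ((γ : SL(2, ℤ)) : Matrix (Fin 2) (Fin 2) ℤ) * repMat q x =
        ((δ : SL(2, ℤ)) : Matrix (Fin 2) (Fin 2) ℤ) * repMat q y := congrArg Subtype.val h
    have hxy : x = y := by
      refine repMat_unique (γ := (γ : SL(2, ℤ))⁻¹ * δ) ?_
      rw [coe_mul, Matrix.mul_assoc, ← h', ← Matrix.mul_assoc, ← coe_mul, inv_mul_cancel,
        coe_one, Matrix.one_mul]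
    subst hxy
    refine Prod.ext rfl (Subtype.ext (Subtype.ext ?_))
    have h'' := congrArg (fun X => X * (repMat q x).adjugate) h'
    simp only [Matrix.mul_assoc, Matrix.mul_adjugate, det_repMat, Matrix.mul_smul,
      Matrix.mul_one] at h''
    exact smul_right_injective _ (show (q : ℤ) ≠ 0 by
      exact_mod_cast (Fact.out : q.Prime).ne_zero) h''
  · rintro ⟨A, hdet, hc⟩
    obtain ⟨γ, x, rfl⟩ := exists_eq_mul_repMat hqN A hdet hc
    exact ⟨(x, γ), rfl⟩

/-- The Hecke matrix with given representative and group element is their product. -/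
lemma gl_cosetMap (p : OnePoint (ZMod q) × Gamma0 N) :
    (cosetMap p).gl = mapGL ℝ (p.2 : SL(2, ℤ)) * heckeRep q p.1 := by
  rw [HeckeMat.gl, ← intGL_repMat, ← intGL_coe, ← intGL_mul]
  rfl

lemma slash_cosetMap (p : OnePoint (ZMod q) × Gamma0 N) :
    (g : ℍ → ℂ) ∣[(2 : ℤ)] (cosetMap p).gl = (g : ℍ → ℂ) ∣[(2 : ℤ)] heckeRep q p.1 := by
  rw [gl_cosetMap, SlashAction.slash_mul,
    SlashInvariantFormClass.slash_action_eq g _ (Subgroup.mem_map_of_mem (mapGL ℝ) p.2.2)]

variable [NeZero N]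

/-- The real weight agrees with the weight. -/
lemma enorm_wR (τ : ℍ) : ‖wR N τ‖ₑ = weight (Gamma0 N) τ := by
  rw [Real.enorm_eq_ofReal (wR_nonneg τ), wR, ENNReal.ofReal_toReal (weight_ne_top _ τ)]

lemma tsum_wR (τ : ℍ) : ∑' γ : Gamma0 N, wR N ((γ : SL(2, ℤ)) • τ) = 1 := by
  simp only [wR]
  rw [← ENNReal.tsum_toReal_eq fun γ => weight_ne_top _ _, tsum_weight, ENNReal.toReal_one]

/-- The translated integrands of two forms are uniformly bounded. -/
lemma exists_bound : ∃ C : ℝ, 0 ≤ C ∧ ∀ (A : HeckeMat N q) (τ : ℍ),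
    ‖petersson 2 f ((g : ℍ → ℂ) ∣[(2 : ℤ)] A.gl) τ‖ ≤ C := by
  obtain ⟨C₁, h₁⟩ := CuspFormClass.petersson_bounded_left 2 (Gamma0 N) f f
  obtain ⟨C₂, h₂⟩ := CuspFormClass.petersson_bounded_left 2 (Gamma0 N) g g
  refine ⟨max (C₁ + C₂) 0, le_max_right _ _, fun A τ => le_max_of_le_left ?_⟩
  refine (norm_petersson_le _ _ τ).trans (add_le_add (h₁ τ) ?_)
  rw [petersson_slash_two]
  exact h₂ _

lemma enorm_tsum_term_le (hqN : ¬ q ∣ N) : ∃ C : ℝ≥0∞, C ≠ ∞ ∧
    ∀ τ, ∑' A : HeckeMat N q, ‖term f g A τ‖ₑ ≤ C * weight (Gamma0 N) τ := by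
  obtain ⟨C, hC0, hC⟩ := exists_bound (q := q) f g
  refine ⟨(Fintype.card (OnePoint (ZMod q)) : ℝ≥0∞) * ENNReal.ofReal C,
    ENNReal.mul_ne_top (ENNReal.natCast_ne_top _) ENNReal.ofReal_ne_top, fun τ => ?_⟩
  have hle : ∀ A : HeckeMat N q, ‖term f g A τ‖ₑ ≤
      ENNReal.ofReal C * weight (Gamma0 N) τ * weight (Gamma0 N) (A.gl • τ) := by
    intro A
    rw [term, enorm_mul, show ‖((wR N τ * wR N (A.gl • τ) : ℝ) : ℂ)‖ₑ =
        weight (Gamma0 N) τ * weight (Gamma0 N) (A.gl • τ) by
      rw [← enorm_wR, ← enorm_wR, ← enorm_mul]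
      simp only [← ofReal_norm, Complex.norm_real]]
    refine le_of_le_of_eq (mul_le_mul' le_rfl ?_)
      (by rw [mul_comm (ENNReal.ofReal C), mul_right_comm])
    rw [← ofReal_norm]
    exact ENNReal.ofReal_le_ofReal (hC A τ)
  refine (ENNReal.tsum_le_tsum hle).trans (le_of_eq ?_)
  rw [ENNReal.tsum_mul_left, ← (Equiv.ofBijective _ (cosetMap_bijective hqN)).tsum_eq,
    ENNReal.tsum_prod (f := fun x γ => weight (Gamma0 N)
      ((Equiv.ofBijective _ (cosetMap_bijective (N := N) hqN) (x, γ)).gl • τ)), tsum_fintype]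
  simp only [Equiv.ofBijective_apply, gl_cosetMap, mul_smul, mapGL_smul]
  simp only [tsum_weight, Finset.sum_const, Finset.card_univ, nsmul_eq_mul, mul_one]
  ring

lemma tsum_term (hqN : ¬ q ∣ N) (τ : ℍ) :
    ∑' A : HeckeMat N q, term f g A τ =
      (wR N τ : ℂ) * petersson 2 f (ModularForm.heckeT 2 q g) τ := by
  have : NeZero q := ⟨(Fact.out : q.Prime).ne_zero⟩
  obtain ⟨C, hC, hle⟩ := enorm_tsum_term_le f g hqN
  have hsum : Summable fun A : HeckeMat N q => term f g A τ := by
    refine Summable.of_norm ?_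
    have h := ENNReal.summable_toReal
      (ne_top_of_le_ne_top (ENNReal.mul_ne_top hC (weight_ne_top _ τ)) (hle τ))
    simpa only [toReal_enorm] using h
  set e := Equiv.ofBijective _ (cosetMap_bijective (N := N) hqN)
  rw [← e.tsum_eq,
    Summable.tsum_prod (f := fun c => term (⇑f) (⇑g) (e c) τ) ((e.summable_iff).mpr hsum),
    tsum_fintype,
    heckeT_eq_sum_onePoint]
  simp only [petersson, Finset.sum_apply, Finset.mul_sum, Finset.sum_mul]
  refine Finset.sum_congr rfl fun x _ => ?_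
  have hterm : ∀ γ : Gamma0 N, term f g (e (x, γ)) τ =
      (wR N ((γ : SL(2, ℤ)) • heckeRep q x • τ) : ℂ) *
        ((wR N τ : ℂ) * petersson 2 f ((g : ℍ → ℂ) ∣[(2 : ℤ)] heckeRep q x) τ) := by
    intro γ
    rw [term, show e (x, γ) = cosetMap (x, γ) from rfl, slash_cosetMap, gl_cosetMap, mul_smul,
      mapGL_smul]
    push_cast
    ring
  rw [tsum_congr hterm, tsum_mul_right, ← Complex.ofReal_tsum, tsum_wR, Complex.ofReal_one,
    one_mul]
  rfl

theorem tsum_integral_term (hqN : ¬ q ∣ N) :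
    ∑' A : HeckeMat N q, ∫ τ, term f g A τ = pet N f (ModularForm.heckeT 2 q g) := by
  obtain ⟨C, hC, hle⟩ := enorm_tsum_term_le f g hqN
  have : Countable (HeckeMat N q) := by
    have := countable_matrix
    exact Subtype.countable
  rw [← integral_tsum fun A => (measurable_term f g A).aestronglyMeasurable]
  · exact integral_congr_ae (Filter.Eventually.of_forall fun τ => tsum_term f g hqN τ)
  · rw [← lintegral_tsum fun A => (measurable_term f g A).enorm.aemeasurable]
    refine ne_top_of_le_ne_top ?_ (lintegral_mono hle)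
    rw [lintegral_const_mul _ (measurable_weight _)]
    exact ENNReal.mul_ne_top hC (lintegral_weight_lt_top _).ne

/-- The Petersson product is hermitian. -/
lemma pet_conj (f g : ℍ → ℂ) : conj (pet N f g) = pet N g f := by
  rw [pet, pet, ← integral_conj]
  simp only [map_mul, Complex.conj_ofReal, ← petersson_symm]

/-- `T_q` is symmetric for the Petersson product. -/
theorem pet_heckeT (hqN : ¬ q ∣ N) :
    pet N f (ModularForm.heckeT 2 q g) = pet N (ModularForm.heckeT 2 q f) g := by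
  rw [← pet_conj g (ModularForm.heckeT 2 q f), ← tsum_integral_term f g hqN,
    ← tsum_integral_term g f hqN, Complex.conj_tsum,
    ← (adjEquiv (N := N) (q := q)).tsum_eq fun A => conj (∫ τ, term g f A τ)]
  exact tsum_congr fun A => integral_term_adj f g A

end FermatAgent.MF.Petersson
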