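import Fermat.Agent.HM.Trace
import Fermat.Agent.MF.PeterssonHecke
import Fermat.Agent.S08
import Fermat.Prelude.Def_CuspForm_HeckeAlgebra

/-!
The weight two Hecke algebra of prime level is reduced: `T_q`, `q ≠ N`, is symmetric for the
positive definite Petersson product, and `U_N² = 1` as there are no cusp forms of level one.
-/

set_option autoImplicit false

noncomputable section

open scoped MatrixGroups ModularForm ComplexConjugate ENNReal Manifold
open UpperHalfPlane MeasureTheory CongruenceSubgroup Matrix.SpecialLinearGroup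
open FermatAgent.HM

namespace FermatAgent.MF.Petersson

variable {N : ℕ} [NeZero N]

lemma volume_open_pos {U : Set ℍ} (hU : IsOpen U) (hne : U.Nonempty) : volume U ≠ 0 := by
  intro h0
  rw [volume_eq_lintegral] at h0
  have hopen : IsOpen ((↑) '' U : Set ℂ) := isOpenEmbedding_coe.isOpenMap _ hU
  rw [setLIntegral_eq_zero_iff hopen.measurableSet (by fun_prop)] at h0
  have hz : volume ((↑) '' U : Set ℂ) = 0 := by
    rw [← nonpos_iff_eq_zero]
    refine le_of_le_of_eq (measure_mono fun z hz => ?_) (ae_iff.mp h0)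
    intro himp
    have h := himp hz
    obtain ⟨τ, -, rfl⟩ := hz
    simp [τ.im_ne_zero] at h
  exact (hopen.measure_pos volume (hne.image _)).ne' hz

/-- The weight is integrable. -/
lemma integrable_wR : Integrable (wR N) :=
  integrable_toReal_of_lintegral_ne_top (measurable_weight _).aemeasurable
    (lintegral_weight_lt_top _).ne

/-- A holomorphic function with bounded Petersson norm and vanishing Petersson product is zero. -/
theorem eq_zero_of_pet_self_fun {f : ℍ → ℂ} (hf : MDiff f) {C : ℝ}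
    (hC : ∀ τ, ‖petersson 2 f f τ‖ ≤ C) (h : pet N f f = 0) : f = 0 := by
  set F : ℍ → ℝ := fun τ => wR N τ * (‖f τ‖ ^ 2 * τ.im ^ (2 : ℕ)) with hF
  have hFc : ∀ τ, ((wR N τ : ℂ) * petersson 2 f f τ) = (F τ : ℂ) := fun τ => by
    simp only [petersson, hF, Complex.conj_mul']
    push_cast
    rfl
  have hint : Integrable fun τ => (wR N τ : ℂ) * petersson 2 f f τ := by
    refine Integrable.mul_bdd ?_ (petersson_continuous 2 hf.continuous
      hf.continuous).aestronglyMeasurable (Filter.Eventually.of_forall hC)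
    exact integrable_wR.ofReal
  have hFint : Integrable F := by
    have := hint.re
    simp only [hFc, RCLike.re_to_complex, Complex.ofReal_re] at this
    exact this
  have hF0 : 0 ≤ F := fun τ => mul_nonneg (wR_nonneg τ) (by positivity)
  have hzero : ∫ τ, F τ = 0 := by
    rw [pet, integral_congr_ae (Filter.Eventually.of_forall hFc), integral_complex_ofReal] at h
    exact_mod_cast h
  have hae := (integral_eq_zero_iff_of_nonneg hF0 hFint).mp hzero
  set c : SL(2, ℤ) := (QuotientGroup.mk (1 : SL(2, ℤ)) : SL(2, ℤ) ⧸ Gamma0 N).out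
  set U : Set ℍ := {τ | c • τ ∈ ModularGroup.fdo} ∩ {τ | f τ ≠ 0} with hU
  have hW : IsOpen {τ : ℍ | c • τ ∈ ModularGroup.fdo} :=
    ModularGroup.isOpen_fdo.preimage
      (show Continuous fun τ : ℍ => mapGL ℝ c • τ from continuous_const_smul _)
  have hUopen : IsOpen U :=
    hW.inter (isOpen_ne.preimage hf.continuous)
  have hUempty : U = ∅ := by
    rw [← Set.not_nonempty_iff_eq_empty]
    intro hne
    refine volume_open_pos hUopen hne ?_
    refine measure_mono_null ?_ (ae_iff.mp hae)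
    intro τ hτ hF'
    obtain ⟨hτ1, hτ2⟩ := hτ
    have hw : 0 < wR N τ :=
      ENNReal.toReal_pos (weight_pos _ (ModularGroup.fdo_subset_fd hτ1)).ne' (weight_ne_top _ τ)
    have hpos : 0 < F τ := mul_pos hw (mul_pos (pow_pos (norm_pos_iff.mpr hτ2) 2)
      (pow_pos τ.im_pos 2))
    exact hpos.ne' hF'
  obtain ⟨τ₀, hτ₀⟩ : {τ : ℍ | c • τ ∈ ModularGroup.fdo}.Nonempty := by
    refine ⟨c⁻¹ • (⟨2 * Complex.I, by simp⟩ : ℍ), ?_⟩
    show c • c⁻¹ • (⟨2 * Complex.I, _⟩ : ℍ) ∈ ModularGroup.fdo
    rw [smul_inv_smul]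
    constructor <;> norm_num [Complex.normSq_apply]
  refine UpperHalfPlane.eq_zero_of_frequently hf (τ := τ₀) (Filter.Eventually.frequently ?_)
  filter_upwards [mem_nhdsWithin_of_mem_nhds (hW.mem_nhds hτ₀)] with τ hτ
  by_contra hne
  exact (Set.eq_empty_iff_forall_notMem.mp hUempty) τ ⟨hτ, hne⟩

/-- The Petersson product is positive definite. -/
theorem eq_zero_of_pet_self (f : (CuspForm (Gamma0 N) 2)) (h : pet N f f = 0) : f = 0 := by
  obtain ⟨C, hC⟩ := CuspFormClass.petersson_bounded_left 2 (Gamma0 N) f f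
  exact DFunLike.coe_injective (eq_zero_of_pet_self_fun (CuspFormClass.holo f) hC h)

lemma pet_zero_right (f : ℍ → ℂ) : pet N f (0 : ℍ → ℂ) = 0 := by
  simp [pet, petersson]

/-- Operators symmetric for the Petersson product. -/
def IsSym (b : Module.End ℂ (CuspForm (Gamma0 N) 2)) : Prop :=
  ∀ f g : (CuspForm (Gamma0 N) 2), pet N f (b g) = pet N (b f) g

lemma IsSym.apply_eq_zero {b : Module.End ℂ (CuspForm (Gamma0 N) 2)} (hb : IsSym b) {n : ℕ}
    {f : (CuspForm (Gamma0 N) 2)}
    (h : (b ^ (n + 1)) f = 0) : b f = 0 := by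
  induction n with
  | zero => simpa using h
  | succ n ih =>
    refine ih (eq_zero_of_pet_self _ ?_)
    have h2 : b (b ((b ^ n) f)) = 0 := by
      rw [← Module.End.mul_apply, ← Module.End.mul_apply, mul_assoc, ← pow_succ', ← pow_succ']
      exact h
    rw [pow_succ' b n, Module.End.mul_apply, ← hb, h2]
    exact pet_zero_right _

lemma petersson_integrable (f g : (CuspForm (Gamma0 N) 2)) :
    Integrable fun τ => (wR N τ : ℂ) * petersson 2 f g τ := by
  obtain ⟨C, hC⟩ := CuspFormClass.petersson_bounded_left 2 (Gamma0 N) f g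
  refine Integrable.mul_bdd ?_ (petersson_continuous 2 (CuspFormClass.holo f).continuous
    (CuspFormClass.holo g).continuous).aestronglyMeasurable (Filter.Eventually.of_forall hC)
  exact integrable_wR.ofReal

lemma pet_add_right (f g h : (CuspForm (Gamma0 N) 2)) :
    pet N f ⇑(g + h) = pet N f g + pet N f h := by
  rw [pet, pet, pet, ← integral_add (petersson_integrable f g) (petersson_integrable f h)]
  refine integral_congr_ae (Filter.Eventually.of_forall fun τ => ?_)
  simp [petersson]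
  ring

lemma pet_add_left (f g h : (CuspForm (Gamma0 N) 2)) :
    pet N ⇑(f + g) h = pet N f h + pet N g h := by
  rw [← pet_conj, pet_add_right, map_add, pet_conj, pet_conj]

lemma pet_intSMul_right (c : ℤ) (f g : (CuspForm (Gamma0 N) 2)) :
    pet N f ⇑(c • g) = c * pet N f g := by
  rw [pet, pet, ← integral_const_mul]
  refine integral_congr_ae (Filter.Eventually.of_forall fun τ => ?_)
  simp [petersson]
  ring

lemma pet_intSMul_left (c : ℤ) (f g : (CuspForm (Gamma0 N) 2)) :
    pet N ⇑(c • f) g = c * pet N f g := by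
  rw [← pet_conj, pet_intSMul_right, map_mul, map_intCast, pet_conj]

lemma isSym_heckeTLin {q : ℕ} (hq : q.Prime) (hqN : ¬ q ∣ N) :
    IsSym (CuspForm.heckeTLin 2 hq hqN : Module.End ℂ (CuspForm (Gamma0 N) 2)) := fun f g => by
  have : Fact q.Prime := ⟨hq⟩
  simpa using pet_heckeT f g hqN

lemma IsSym.ofInt (c : ℤ) : IsSym (algebraMap ℤ (Module.End ℂ (CuspForm (Gamma0 N) 2)) c) :=
  fun f g => by
  simp only [Algebra.algebraMap_eq_smul_one, LinearMap.smul_apply, Module.End.one_apply]
  rw [pet_intSMul_right, pet_intSMul_left]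

lemma IsSym.add {a b : Module.End ℂ (CuspForm (Gamma0 N) 2)} (ha : IsSym a) (hb : IsSym b) :
    IsSym (a + b) :=
  fun f g => by
    simp only [LinearMap.add_apply]
    rw [pet_add_right, pet_add_left, ha, hb]

lemma IsSym.mul {a b : Module.End ℂ (CuspForm (Gamma0 N) 2)} (ha : IsSym a) (hb : IsSym b)
    (hab : Commute a b) :
    IsSym (a * b) := fun f g => by
  rw [Module.End.mul_apply, ha, hb, ← Module.End.mul_apply, hab.symm.eq]

lemma heckeULin_heckeULin (hN : N.Prime) (g : (CuspForm (Gamma0 N) 2)) :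
    CuspForm.heckeULin 2 (dvd_refl N) (CuspForm.heckeULin 2 (dvd_refl N) g) = g := by
  obtain ⟨D, hDq, hDL⟩ := ALData.exists_data hN
    (fun h => hN.one_lt.ne' (Nat.dvd_one.mp h)) one_ne_zero
  obtain rfl : D.N = N := by rw [ALData.N, hDq, hDL, one_mul]
  have key : ∀ f : CuspForm (Gamma0 D.N) 2,
      CuspForm.heckeULin 2 D.q_dvd_N f = -D.op f := by
    intro f
    have h := ALData.levelRaise_tr D (D.op f)
    have h0 : D.tr (D.op f) = 0 := by
      apply DFunLike.coe_injective
      have hz : ∀ (L : ℕ) (hL : L = 1) (t : CuspForm (Gamma0 L) 2), t = 0 := by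
        rintro L rfl t
        exact Fermat.Agent.S08.result t
      rw [hz D.L hDL (D.tr (D.op f))]
    rw [h0, map_zero, D.op_op] at h
    exact eq_neg_of_add_eq_zero_right h.symm
  have hU : ∀ (p : ℕ) (hp : p ∣ D.N) (_ : p = D.q) (f : CuspForm (Gamma0 D.N) 2),
      CuspForm.heckeULin 2 hp f = -D.op f := by
    rintro p hp rfl f
    exact key f
  have hqN : D.N = D.q := by rw [ALData.N, hDL, one_mul]
  rw [hU _ _ hqN, hU _ _ hqN, ← neg_one_smul ℂ (D.op g), D.op_smul, D.op_op, neg_one_smul, neg_neg]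

/-- An element of the Hecke algebra agrees on each eigenspace of `U_N` with a symmetric
operator. -/
lemma exists_sym (hN : N.Prime) {a : Module.End ℂ (CuspForm (Gamma0 N) 2)}
    (ha : a ∈ CuspForm.heckeAlgebra N 2 ∅)
    (ε : ℤ) :
    ∃ b ∈ CuspForm.heckeAlgebra N 2 ∅, IsSym b ∧
      ∀ f : (CuspForm (Gamma0 N) 2), CuspForm.heckeULin 2 (dvd_refl N) f = (ε : ℂ) • f →
        a f = b f := by
  induction ha using Algebra.adjoin_induction with
  | mem x hx =>
    rcases hx with ⟨ℓ, hℓ, hℓN, hℓS, rfl⟩ | ⟨q, hqN, hq, -, rfl⟩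
    · exact ⟨_, CuspForm.heckeTLin_mem_heckeAlgebra hℓ hℓN hℓS, isSym_heckeTLin hℓ hℓN,
        fun _ _ => rfl⟩
    · obtain rfl : q = N := (Nat.prime_dvd_prime_iff_eq hq hN).mp hqN
      refine ⟨algebraMap ℤ _ ε, Subalgebra.algebraMap_mem _ _, IsSym.ofInt ε,
        fun f hf => ?_⟩
      rw [hf, Algebra.algebraMap_eq_smul_one, LinearMap.smul_apply, Module.End.one_apply,
        Int.cast_smul_eq_zsmul]
  | algebraMap r => exact ⟨_, Subalgebra.algebraMap_mem _ r, IsSym.ofInt r, fun _ _ => rfl⟩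
  | add x y _ _ hx hy =>
    obtain ⟨b, hb, hbs, hxb⟩ := hx
    obtain ⟨c, hc, hcs, hyc⟩ := hy
    exact ⟨b + c, add_mem hb hc, hbs.add hcs, fun f hf => by
      rw [LinearMap.add_apply, LinearMap.add_apply, hxb f hf, hyc f hf]⟩
  | mul x y hx' hy' hx hy =>
    obtain ⟨b, hb, hbs, hxb⟩ := hx
    obtain ⟨c, hc, hcs, hyc⟩ := hy
    have hcomm : ∀ u v, u ∈ CuspForm.heckeAlgebra N 2 ∅ → v ∈ CuspForm.heckeAlgebra N 2 ∅ →
        Commute u v := fun u v hu hv => congrArg Subtype.val
      (mul_comm (⟨u, hu⟩ : CuspForm.heckeAlgebra N 2 ∅) ⟨v, hv⟩)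
    refine ⟨b * c, mul_mem hb hc, hbs.mul hcs (hcomm b c hb hc), fun f hf => ?_⟩
    rw [Module.End.mul_apply, Module.End.mul_apply, hyc f hf]
    refine hxb _ ?_
    rw [← Module.End.mul_apply, (hcomm _ c
      (CuspForm.heckeULin_mem_heckeAlgebra hN (dvd_refl N) (Set.notMem_empty N)) hc).eq,
      Module.End.mul_apply, hf, map_smul]

/-- The weight two Hecke algebra of prime level is reduced. -/
theorem isReduced_heckeAlgebra (hN : N.Prime) : IsReduced (CuspForm.heckeAlgebra N 2 ∅) := by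
  refine ⟨fun a ⟨n, hn⟩ => ?_⟩
  obtain ⟨U, hU, hUmem⟩ : ∃ U : Module.End ℂ (CuspForm (Gamma0 N) 2),
      U = CuspForm.heckeULin 2 (dvd_refl N) ∧
      U ∈ CuspForm.heckeAlgebra N 2 ∅ :=
    ⟨_, rfl, CuspForm.heckeULin_mem_heckeAlgebra hN (dvd_refl N) (Set.notMem_empty N)⟩
  have hcomm : ∀ u, u ∈ CuspForm.heckeAlgebra N 2 ∅ → Commute U u := fun u hu =>
    congrArg Subtype.val (mul_comm (⟨U, hUmem⟩ : CuspForm.heckeAlgebra N 2 ∅) ⟨u, hu⟩)
  have hzero : ∀ (ε : ℤ) (f : (CuspForm (Gamma0 N) 2)), U f = (ε : ℂ) • f → a.1 f = 0 := by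
    intro ε f hf
    obtain ⟨b, hb, hbs, hab⟩ := exists_sym hN a.2 ε
    subst hU
    have hpow : ∀ m : ℕ, (a.1 ^ m) f = (b ^ m) f ∧
        CuspForm.heckeULin 2 (dvd_refl N) ((b ^ m) f) = (ε : ℂ) • (b ^ m) f := by
      intro m
      have hU' : CuspForm.heckeULin 2 (dvd_refl N) ((b ^ m) f) = (ε : ℂ) • (b ^ m) f := by
        rw [← Module.End.mul_apply, ((hcomm b hb).pow_right m).eq, Module.End.mul_apply, hf,
          map_smul]
      refine ⟨?_, hU'⟩
      clear hU'
      induction m with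
      | zero => rfl
      | succ m ih =>
        rw [pow_succ', pow_succ', Module.End.mul_apply, Module.End.mul_apply, ih]
        refine hab _ ?_
        rw [← Module.End.mul_apply, ((hcomm b hb).pow_right m).eq, Module.End.mul_apply, hf,
          map_smul]
    rw [hab f hf]
    refine hbs.apply_eq_zero (n := n) ?_
    rw [← (hpow (n + 1)).1, show (a.1 ^ (n + 1)) = ((a ^ (n + 1) : CuspForm.heckeAlgebra N 2 ∅) :
      Module.End ℂ (CuspForm (Gamma0 N) 2)) from rfl, pow_succ, hn, zero_mul]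
    rfl
  apply Subtype.ext
  refine LinearMap.ext fun f => ?_
  have hUU : U (U f) = f := hU ▸ heckeULin_heckeULin hN f
  have h1 := hzero 1 (f + U f) (by rw [map_add, hUU, Int.cast_one, one_smul, add_comm])
  have h2 := hzero (-1) (f - U f) (by
    rw [map_sub, hUU, Int.cast_neg, Int.cast_one, neg_one_smul, neg_sub])
  rw [map_add] at h1
  rw [map_sub, sub_eq_zero] at h2
  rw [← h2, ← two_smul ℂ] at h1
  exact (smul_eq_zero.mp h1).resolve_left two_ne_zero

end FermatAgent.MF.Petersson
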