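import Fermat.Agent.MF.Eigen
import Fermat.Agent.MF.IntegralStructure
import Fermat.Agent.MF.Reduced

/-!
`T_q ∓ (q + 1)` is injective on `S₂(Γ₀(N))`: an eigenvector with eigenvalue `± (q + 1)` would
be fixed up to sign by every representative of `T_q`.
-/

set_option autoImplicit false

noncomputable section

open scoped MatrixGroups ModularForm ENNReal ComplexConjugate Manifold
open UpperHalfPlane MeasureTheory CongruenceSubgroup Matrix.SpecialLinearGroup ModularFormClass
open FermatAgent.HM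
open P2MW.S_ModularForm_heckeT_slash_eq_self_of_mem_Gamma0.ModularForm.HeckeSlashInvariance

namespace FermatAgent.MF.Petersson

variable {N q : ℕ} [NeZero N] [hq : Fact q.Prime]

omit [NeZero N] in
/-- The projective line over `𝔽_q` has `q + 1` points. -/
lemma card_onePoint : Fintype.card (OnePoint (ZMod q)) = q + 1 :=
  by
  rw [← Nat.card_eq_fintype_card]
  show Nat.card (Option (ZMod q)) = q + 1
  rw [Finite.card_option, Nat.card_zmod]

omit [NeZero N] in
/-- The operator `T_q` preserves total mass of invariant functions. -/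
theorem sum_lintegral_smul (hqN : ¬ q ∣ N) {G : ℍ → ℝ≥0∞} (hG : Measurable G)
    (hinv : ∀ γ ∈ Gamma0 N, ∀ τ, G ((γ : SL(2, ℤ)) • τ) = G τ) :
    ∑ x : OnePoint (ZMod q), ∫⁻ τ, weight (Gamma0 N) τ * G (heckeRep q x • τ) =
      (Fintype.card (OnePoint (ZMod q)) : ℝ≥0∞) * ∫⁻ τ, weight (Gamma0 N) τ * G τ := by
  have hw := measurable_weight (Gamma0 N)
  have hsm : ∀ A : HeckeMat N q, Measurable fun τ : ℍ => A.gl • τ := fun A =>
    (continuous_const_smul _).measurable
  have : Countable (HeckeMat N q) := by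
    have := countable_matrix
    exact Subtype.countable
  set e := Equiv.ofBijective _ (cosetMap_bijective (N := N) (q := q) hqN)
  have hmass : ∀ σ, ∑' A : HeckeMat N q, weight (Gamma0 N) (A.gl • σ) =
      (Fintype.card (OnePoint (ZMod q)) : ℝ≥0∞) := by
    intro σ
    rw [← e.tsum_eq, ENNReal.tsum_prod (f := fun x γ => weight (Gamma0 N) ((e (x, γ)).gl • σ)),
      tsum_fintype]
    simp only [e, Equiv.ofBijective_apply, gl_cosetMap, mul_smul, mapGL_smul, tsum_weight,
      Finset.sum_const, Finset.card_univ, nsmul_eq_mul, mul_one]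
  have hleft : ∀ τ, (∑ x : OnePoint (ZMod q), weight (Gamma0 N) τ * G (heckeRep q x • τ)) =
      ∑' A : HeckeMat N q,
        weight (Gamma0 N) τ * weight (Gamma0 N) (A.gl • τ) * G (A.gl • τ) := by
    intro τ
    rw [← e.tsum_eq, ENNReal.tsum_prod (f := fun x γ => weight (Gamma0 N) τ *
      weight (Gamma0 N) ((e (x, γ)).gl • τ) * G ((e (x, γ)).gl • τ)), tsum_fintype]
    refine Finset.sum_congr rfl fun x _ => ?_
    have h : ∀ γ : Gamma0 N, weight (Gamma0 N) τ * weight (Gamma0 N) ((e (x, γ)).gl • τ) *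
        G ((e (x, γ)).gl • τ) =
        weight (Gamma0 N) τ * G (heckeRep q x • τ) *
          weight (Gamma0 N) ((γ : SL(2, ℤ)) • heckeRep q x • τ) := by
      intro γ
      rw [show e (x, γ) = cosetMap (x, γ) from rfl, gl_cosetMap, mul_smul, mapGL_smul,
        hinv _ γ.2]
      ring
    rw [tsum_congr h, ENNReal.tsum_mul_left, tsum_weight, mul_one]
  rw [← lintegral_finsetSum (Finset.univ)
    (f := fun x τ => weight (Gamma0 N) τ * G (heckeRep q x • τ))
    fun x _ => hw.mul (hG.comp (continuous_const_smul _).measurable), lintegral_congr hleft,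
    lintegral_tsum (f := fun (A : HeckeMat N q) τ =>
      weight (Gamma0 N) τ * weight (Gamma0 N) (A.gl • τ) * G (A.gl • τ))
      fun A => ((hw.mul (hw.comp (hsm A))).mul (hG.comp (hsm A))).aemeasurable]
  have hsub : ∀ A : HeckeMat N q,
      ∫⁻ τ, weight (Gamma0 N) τ * weight (Gamma0 N) (A.gl • τ) * G (A.gl • τ) =
        ∫⁻ σ, weight (Gamma0 N) (A.adj.gl • σ) * (weight (Gamma0 N) σ * G σ) := by
    intro A
    have hm : Measurable fun τ =>
        weight (Gamma0 N) τ * weight (Gamma0 N) (A.gl • τ) * G (A.gl • τ) :=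
      (hw.mul (hw.comp (hsm A))).mul (hG.comp (hsm A))
    rw [← (measurePreserving_smul A.adj.gl volume).lintegral_comp hm]
    refine lintegral_congr fun σ => ?_
    rw [← mul_smul, A.gl_mul_adj, HM.intGL_scalar_smul (Fact.out : q.Prime).ne_zero,
      mul_assoc]
  rw [tsum_congr hsub, ← (adjEquiv (N := N) (q := q)).tsum_eq,
    ← lintegral_tsum (f := fun (A : HeckeMat N q) σ =>
      weight (Gamma0 N) ((adjEquiv A).adj.gl • σ) * (weight (Gamma0 N) σ * G σ))
      fun A => ((hw.comp (hsm _)).mul (hw.mul hG)).aemeasurable,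
    ← lintegral_const_mul _ (hw.fun_mul hG)]
  refine lintegral_congr fun σ => ?_
  rw [ENNReal.tsum_mul_right]
  congr 1
  rw [← hmass σ]
  refine tsum_congr fun A => ?_
  rw [show (adjEquiv A : HeckeMat N q) = A.adj from rfl, A.adj_adj]

variable (f : CuspForm (Gamma0 N) 2)

omit [NeZero N] in
lemma slash_heckeRep_petersson (x : OnePoint (ZMod q)) (τ : ℍ) :
    petersson 2 ((f : ℍ → ℂ) ∣[(2 : ℤ)] heckeRep q x) ((f : ℍ → ℂ) ∣[(2 : ℤ)] heckeRep q x) τ =
      petersson 2 f f (heckeRep q x • τ) := by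
  rw [← intGL_repMat]
  exact petersson_slash_two (N := N) f f ⟨repMat q x, det_repMat x, by
    induction x using OnePoint.rec <;> simp⟩ τ

/-- The mass of the translates. -/
theorem sum_pet_slash (hqN : ¬ q ∣ N) :
    ∑ x : OnePoint (ZMod q),
      pet N ((f : ℍ → ℂ) ∣[(2 : ℤ)] heckeRep q x) ((f : ℍ → ℂ) ∣[(2 : ℤ)] heckeRep q x) =
        ((q : ℂ) + 1) * pet N f f := by
  set F : ℍ → ℝ := fun τ => ‖petersson 2 f f τ‖
  have hP : ∀ τ, petersson 2 f f τ = (F τ : ℂ) := by
    intro τ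
    have : petersson 2 f f τ = (((‖f τ‖ ^ 2 * τ.im ^ (2 : ℕ)) : ℝ) : ℂ) := by
      simp only [petersson, Complex.conj_mul']
      push_cast
      rfl
    simp only [F]
    rw [this, Complex.norm_real, Real.norm_of_nonneg (by positivity)]
  have hFc : Continuous F :=
    (petersson_continuous 2 (CuspFormClass.holo f).continuous
      (CuspFormClass.holo f).continuous).norm
  have key : ∀ g : ℍ → ℍ, Measurable g → ∫ τ, (wR N τ : ℂ) * petersson 2 f f (g τ) =
      (((∫⁻ τ, weight (Gamma0 N) τ * ‖petersson 2 f f (g τ)‖ₑ).toReal : ℝ) : ℂ) := by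
    intro g hg
    simp only [hP, ← Complex.ofReal_mul]
    rw [integral_complex_ofReal, integral_eq_lintegral_of_nonneg_ae
      (Filter.Eventually.of_forall fun τ => mul_nonneg (wR_nonneg τ) (norm_nonneg _))
      (measurable_wR.mul (hFc.measurable.comp hg)).aestronglyMeasurable]
    congr 2
    refine lintegral_congr fun τ => ?_
    rw [ENNReal.ofReal_mul (wR_nonneg τ), ← Real.enorm_eq_ofReal (wR_nonneg τ), enorm_wR]
    congr 1
    rw [← ofReal_norm, Complex.norm_real, Real.norm_of_nonneg (norm_nonneg _)]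
  have hfin : ∀ g : ℍ → ℍ, ∫⁻ τ, weight (Gamma0 N) τ * ‖petersson 2 f f (g τ)‖ₑ ≠ ∞ := by
    intro g
    obtain ⟨C, hC⟩ := CuspFormClass.petersson_bounded_left 2 (Gamma0 N) f f
    refine ne_top_of_le_ne_top ?_ (lintegral_mono fun τ => mul_le_mul' le_rfl
      (show ‖petersson 2 f f (g τ)‖ₑ ≤ ENNReal.ofReal C by
        rw [← ofReal_norm]; exact ENNReal.ofReal_le_ofReal (hC _)))
    rw [lintegral_mul_const _ (measurable_weight _)]
    exact ENNReal.mul_ne_top (lintegral_weight_lt_top _).ne ENNReal.ofReal_ne_top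
  have h := sum_lintegral_smul (q := q) hqN (G := fun τ => ‖petersson 2 f f τ‖ₑ)
    (petersson_continuous 2 (CuspFormClass.holo f).continuous
      (CuspFormClass.holo f).continuous).measurable.enorm fun γ hγ τ => by
    show ‖petersson 2 f f (mapGL ℝ γ • τ)‖ₑ = ‖petersson 2 f f τ‖ₑ
    rw [SlashInvariantFormClass.petersson_smul (Subgroup.mem_map_of_mem (mapGL ℝ) hγ)]
  simp only [pet, slash_heckeRep_petersson]
  rw [Finset.sum_congr rfl fun x _ => key _ (continuous_const_smul (heckeRep q x)).measurable,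
    show (∫ τ, (wR N τ : ℂ) * petersson 2 f f τ) = _ from key id measurable_id,
    ← Complex.ofReal_sum, ← ENNReal.toReal_sum fun x _ => hfin _, h, ENNReal.toReal_mul]
  rw [card_onePoint]; simp [ENNReal.toReal_add]

/-- An eigenvector all whose translates are `± f` has vanishing coefficients. -/
private theorem eq_zero_of_slash_eq (hqN : ¬ q ∣ N) {ε : ℝ} (hε : ε ^ 2 = 1)
    (h : ModularForm.heckeT 2 q f = ((ε * (q + 1) : ℝ) : ℂ) • ⇑f)
    (hslash : ∀ x, (f : ℍ → ℂ) ∣[(2 : ℤ)] heckeRep q x = (ε : ℂ) • ⇑f) : f = 0 := by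
  have : NeZero q := ⟨hq.out.ne_zero⟩
  have hεc : (ε : ℂ) * ε = 1 := by exact_mod_cast (sq ε).symm.trans hε
  have hU : ModularForm.heckeU 2 q f = ⇑(((q : ℂ) * ε) • f) := by
    rw [heckeU_eq_sum_zmod, FunLike.coe_smul]
    simp only [show ∀ j : ZMod q,
      ModularForm.heckeMatrix q j.val = heckeRep q (j : OnePoint (ZMod q))
      from fun j => rfl, hslash, Finset.sum_const, Finset.card_univ, ZMod.card,
      ← Nat.cast_smul_eq_nsmul ℂ, smul_smul]
  have hrec : ∀ n, (if q ∣ n then (q : ℂ) * qCoeff f (n / q) else 0) = ε * qCoeff f n := by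
    intro n
    have hT := qCoeff_heckeTLin hq.out hqN f n
    rw [CuspForm.coe_heckeTLin_apply, h, ← FunLike.coe_smul, qCoeff_smul] at hT
    have hUn := ModularFormClass.qCoeff_heckeU (k := 2) f (one_mem_periods N) hq.out.ne_zero n
    rw [hU, qCoeff_smul, ModularForm.coeffHeckeU_apply, mul_comm n q] at hUn
    rw [← hUn, heckeConst, if_neg hqN, mul_ite, mul_zero] at hT
    simp only [show (2 : ℤ) - 1 = 1 from rfl, zpow_one] at hT
    push_cast at hT
    split_ifs at hT ⊢ <;> linear_combination -hT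
  have hε0 : (ε : ℂ) ≠ 0 := left_ne_zero_of_mul (hεc ▸ one_ne_zero)
  have hzero : ∀ n, qCoeff f n = 0 := by
    intro n
    induction n using Nat.strong_induction_on with
    | _ n ih =>
      rcases Nat.eq_zero_or_pos n with rfl | hn
      · exact qCoeff_index_zero f
      have h' := hrec n
      split_ifs at h' with hd
      · rw [ih _ (Nat.div_lt_self hn hq.out.one_lt), mul_zero] at h'
        exact (mul_eq_zero.mp h'.symm).resolve_left hε0
      · exact (mul_eq_zero.mp h'.symm).resolve_left hε0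
  exact eq_zero_of_qCoeff_le_sturm f fun n _ => hzero n

/-- An eigenvector of `T_q` with eigenvalue `± (q + 1)` vanishes. -/
theorem eq_zero_of_heckeT_eq (hqN : ¬ q ∣ N) {ε : ℝ} (hε : ε ^ 2 = 1)
    (h : ModularForm.heckeT 2 q f = ((ε * (q + 1) : ℝ) : ℂ) • ⇑f) : f = 0 := by
  have : NeZero q := ⟨hq.out.ne_zero⟩
  set u : OnePoint (ZMod q) → ℍ → ℂ := fun x =>
    (f : ℍ → ℂ) ∣[(2 : ℤ)] heckeRep q x - (ε : ℂ) • ⇑f with hu
  obtain ⟨C, hC0, hC⟩ := exists_bound (q := q) f f
  obtain ⟨C₁, hC₁⟩ := CuspFormClass.petersson_bounded_left 2 (Gamma0 N) f f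
  have hεc : (ε : ℂ) * ε = 1 := by exact_mod_cast (sq ε).symm.trans hε
  have hbx : ∀ x τ, ‖petersson 2 f ((f : ℍ → ℂ) ∣[(2 : ℤ)] heckeRep q x) τ‖ ≤ C := fun x τ => by
    rw [← intGL_repMat]
    exact hC ⟨repMat q x, det_repMat x, by induction x using OnePoint.rec <;> simp⟩ τ
  have hbxx : ∀ x τ, ‖petersson 2 ((f : ℍ → ℂ) ∣[(2 : ℤ)] heckeRep q x)
      ((f : ℍ → ℂ) ∣[(2 : ℤ)] heckeRep q x) τ‖ ≤ C₁ := fun x τ => by
    rw [slash_heckeRep_petersson]; exact hC₁ _
  have hhol : ∀ x, MDiff ((f : ℍ → ℂ) ∣[(2 : ℤ)] heckeRep q x) := fun x =>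
    (CuspFormClass.holo f).slash 2 _
  have hexp : ∀ x τ, petersson 2 (u x) (u x) τ =
      petersson 2 ((f : ℍ → ℂ) ∣[(2 : ℤ)] heckeRep q x) ((f : ℍ → ℂ) ∣[(2 : ℤ)] heckeRep q x) τ -
        ε * petersson 2 f ((f : ℍ → ℂ) ∣[(2 : ℤ)] heckeRep q x) τ -
        ε * conj (petersson 2 f ((f : ℍ → ℂ) ∣[(2 : ℤ)] heckeRep q x) τ) +
        petersson 2 f f τ := fun x τ => by
    simp only [hu, petersson, Pi.sub_apply, Pi.smul_apply, smul_eq_mul, map_sub, map_mul,
      Complex.conj_ofReal, Complex.conj_conj, map_zpow₀]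
    linear_combination ((starRingEnd ℂ) (f τ) * f τ * ((τ.im : ℝ) : ℂ) ^ (2 : ℤ)) * hεc
  have hint : ∀ {P : ℍ → ℂ} {B : ℝ}, Continuous P → (∀ τ, ‖P τ‖ ≤ B) →
      Integrable fun τ => (wR N τ : ℂ) * P τ := fun {P B} hP hB =>
    Integrable.mul_bdd integrable_wR.ofReal hP.aestronglyMeasurable (Filter.Eventually.of_forall hB)
  have hcf := (CuspFormClass.holo f).continuous
  have hpu : ∀ x, pet N (u x) (u x) =
      pet N ((f : ℍ → ℂ) ∣[(2 : ℤ)] heckeRep q x) ((f : ℍ → ℂ) ∣[(2 : ℤ)] heckeRep q x) -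
        ε * pet N f ((f : ℍ → ℂ) ∣[(2 : ℤ)] heckeRep q x) -
        ε * conj (pet N f ((f : ℍ → ℂ) ∣[(2 : ℤ)] heckeRep q x)) + pet N f f := by
    intro x
    have i1 := hint (petersson_continuous 2 (hhol x).continuous (hhol x).continuous) (hbxx x)
    have i2 := hint (petersson_continuous 2 hcf (hhol x).continuous) (hbx x)
    have i3 := hint (P := fun τ => conj (petersson 2 f ((f : ℍ → ℂ) ∣[(2 : ℤ)] heckeRep q x) τ))
      (Complex.continuous_conj.comp (petersson_continuous 2 hcf (hhol x).continuous))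
      (fun τ => by rw [Complex.norm_conj]; exact hbx x τ)
    have i4 := hint (petersson_continuous 2 hcf hcf) hC₁
    have e3 : conj (pet N f ((f : ℍ → ℂ) ∣[(2 : ℤ)] heckeRep q x)) =
        ∫ τ, (wR N τ : ℂ) * conj (petersson 2 f ((f : ℍ → ℂ) ∣[(2 : ℤ)] heckeRep q x) τ) := by
      rw [pet, ← integral_conj]
      simp only [map_mul, Complex.conj_ofReal]
    rw [e3]
    simp only [pet]
    rw [← integral_const_mul, ← integral_const_mul]
    have j1 := i1.sub (i2.const_mul (ε : ℂ))
    have j2 := j1.sub (i3.const_mul (ε : ℂ))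
    rw [← integral_sub i1 (i2.const_mul (ε : ℂ))]
    erw [← integral_sub j1 (i3.const_mul (ε : ℂ)), ← integral_add j2 i4]
    refine integral_congr_ae (Filter.Eventually.of_forall fun τ => ?_)
    simp only [hexp, Pi.sub_apply]
    ring
  have hTsum : ∑ x : OnePoint (ZMod q), pet N f ((f : ℍ → ℂ) ∣[(2 : ℤ)] heckeRep q x) =
      ((ε * (q + 1) : ℝ) : ℂ) * pet N f f := by
    simp only [pet]
    rw [← integral_finsetSum _ fun x _ =>
      hint (petersson_continuous 2 hcf (hhol x).continuous) (hbx x), ← integral_const_mul]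
    refine integral_congr_ae (Filter.Eventually.of_forall fun τ => ?_)
    have h' := congrFun h τ
    rw [heckeT_eq_sum_onePoint, Finset.sum_apply, Pi.smul_apply, smul_eq_mul] at h'
    simp only [petersson, ← Finset.mul_sum, ← Finset.sum_mul, h']
    ring
  have hsum : ∑ x, pet N (u x) (u x) = 0 := by
    simp only [hpu, Finset.sum_add_distrib, Finset.sum_sub_distrib, ← Finset.mul_sum, ← map_sum]
    rw [sum_pet_slash f hqN, hTsum, map_mul, Complex.conj_ofReal, pet_conj, Finset.sum_const,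
      Finset.card_univ, nsmul_eq_mul]
    rw [card_onePoint]
    push_cast
    linear_combination (-2 * ((q : ℂ) + 1) * pet N f f) * hεc
  have huz : ∀ x, u x = 0 := by
    intro x
    have hre : ∀ x, pet N (u x) (u x) =
        ((∫ τ, wR N τ * (‖u x τ‖ ^ 2 * τ.im ^ (2 : ℕ))) : ℝ) := fun x => by
      rw [pet, ← integral_complex_ofReal]
      refine integral_congr_ae (Filter.Eventually.of_forall fun τ => ?_)
      simp only [petersson, Complex.conj_mul']
      push_cast
      rfl
    have h0 : ∀ x ∈ Finset.univ, ∫ τ, wR N τ * (‖u x τ‖ ^ 2 * τ.im ^ (2 : ℕ)) = 0 := by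
      rw [← Finset.sum_eq_zero_iff_of_nonneg fun x _ =>
        integral_nonneg fun τ => mul_nonneg (wR_nonneg τ) (by positivity)]
      simp only [hre, ← Complex.ofReal_sum] at hsum
      exact_mod_cast hsum
    refine eq_zero_of_pet_self_fun (N := N)
      ((hhol x).sub ((CuspFormClass.holo f).const_smul _))
      (C := C₁ + |ε| * C + |ε| * C + C₁) (fun τ => ?_)
      (by rw [hre, h0 x (Finset.mem_univ x), Complex.ofReal_zero])
    rw [hexp x τ]
    refine (norm_add_le _ _).trans (add_le_add ((norm_sub_le _ _).trans (add_le_add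
      ((norm_sub_le _ _).trans (add_le_add (hbxx x τ) ?_)) ?_)) (hC₁ τ))
    all_goals simp only [norm_mul, Complex.norm_real, Real.norm_eq_abs, Complex.norm_conj]
    all_goals exact mul_le_mul_of_nonneg_left (hbx x τ) (abs_nonneg _)
  have hslash : ∀ x, (f : ℍ → ℂ) ∣[(2 : ℤ)] heckeRep q x = (ε : ℂ) • ⇑f := fun x =>
    sub_eq_zero.mp (huz x)
  exact eq_zero_of_slash_eq f hqN hε h hslash

/-- No eigensystem takes the value `± (q + 1)` at `T_q`, in any integral domain. -/
theorem heckeT_value_ne (hqN : ¬ q ∣ N) {R : Type*} [CommRing R] [CharZero R]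
    (θ : CuspForm.heckeAlgebra N 2 ∅ →+* R) {s : ℤ} (hs : s = 1 ∨ s = -1) :
    θ ⟨_, heckeAt_mem hq.out (Set.notMem_empty q)⟩ ≠ (s * (q + 1) : ℤ) := by
  classical
  set t : CuspForm.heckeAlgebra N 2 ∅ := ⟨_, heckeAt_mem hq.out (Set.notMem_empty q)⟩
  set c : ℤ := s * (q + 1)
  intro hθ
  have : Module.Finite ℤ (CuspForm.heckeAlgebra N 2 ∅) := moduleFinite_heckeAlgebra N 2 ∅
  obtain ⟨P, hP, hP0⟩ := IsIntegral.of_finite ℤ t
  obtain ⟨P₁, hP₁, hPc⟩ := Polynomial.exists_eq_pow_rootMultiplicity_mul_and_not_dvd P hP.ne_zero c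
  have hinj : ∀ y : CuspForm.heckeAlgebra N 2 ∅, (t - c) * y = 0 → y = 0 := by
    intro y hy
    refine Subtype.ext (LinearMap.ext fun v => ?_)
    have h1 := LinearMap.congr_fun (congrArg Subtype.val hy) v
    have h2 : CuspForm.heckeTLin 2 hq.out hqN (y.1 v) = (c : ℂ) • y.1 v := by
      have h3 : ((t : Module.End ℂ (CuspForm (Gamma0 N) 2)) -
          (c : Module.End ℂ (CuspForm (Gamma0 N) 2)))
          (y.1 v) = 0 := by simpa using h1
      rw [LinearMap.sub_apply, sub_eq_zero] at h3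
      simp only [t, heckeAt, dif_neg hqN] at h3
      rw [h3, ← zsmul_one, LinearMap.smul_apply, Module.End.one_apply, Int.cast_smul_eq_zsmul]
    refine eq_zero_of_heckeT_eq (q := q) (ε := (s : ℝ)) (y.1 v) hqN
      (by rcases hs with rfl | rfl <;> norm_num) ?_
    rw [← CuspForm.coe_heckeTLin_apply 2 hq.out hqN, h2, FunLike.coe_smul]
    congr 1
    simp only [c]
    push_cast
    rfl
  have hpow : ∀ (m : ℕ) (y : CuspForm.heckeAlgebra N 2 ∅), (t - c) ^ m * y = 0 → y = 0 := by
    intro m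
    induction m with
    | zero => simp
    | succ m ih => exact fun y hy => ih y (hinj _ (by rw [← mul_assoc, ← pow_succ']; exact hy))
  have hP1 : Polynomial.eval₂ (algebraMap ℤ _) t P₁ = 0 := by
    refine hpow (P.rootMultiplicity c) _ ?_
    rw [hP₁, Polynomial.eval₂_mul, Polynomial.eval₂_pow, Polynomial.eval₂_sub, Polynomial.eval₂_X,
      Polynomial.eval₂_C, eq_intCast] at hP0
    exact hP0
  have h1 := congrArg θ hP1
  rw [Polynomial.hom_eval₂, map_zero, hθ,
    show θ.comp (algebraMap ℤ _) = Int.castRingHom R from RingHom.ext_int _ _,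
    ← eq_intCast (Int.castRingHom R) c, Polynomial.eval₂_at_apply, eq_intCast,
    Int.cast_eq_zero] at h1
  exact hPc (Polynomial.dvd_iff_isRoot.mpr h1)

end FermatAgent.MF.Petersson
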