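import Fermat.Agent.MF.EigenChar
import Fermat.Agent.MF.Lattice

/-!
The Deligne–Serre lifting lemma for cusp forms on `Γ₀(N)`.

* `exists_hom_of_eigen_mod`: an eigenform modulo the kernel of `π : R →+* 𝔽` defines a ring
  homomorphism from the Hecke algebra to `𝔽`.
* `exists_isEigen_lift`: every maximal ideal of the full Hecke algebra is the contraction of a
  maximal ideal of the algebraic integers under the eigencharacter of a normalised eigenform.
-/

set_option autoImplicit false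

noncomputable section

open scoped MatrixGroups
open UpperHalfPlane ModularFormClass

namespace FermatAgent.MF

variable {N : ℕ} [NeZero N] {k : ℤ} {S : Set ℕ}

/-- A form which is an eigenvector modulo `π` of the Hecke operators away from `S` gives a
homomorphism from the Hecke algebra into `𝔽`. -/
theorem exists_hom_of_eigen_mod (hk : 1 ≤ k) {R : Subring ℂ} {𝔽 : Type*} [Field 𝔽]
    (π : R →+* 𝔽) (f : CuspForm (CongruenceSubgroup.Gamma0 N) k)
    (hf : ∀ n, qCoeff f n ∈ R) {n₀ : ℕ} (hn₀ : π ⟨_, hf n₀⟩ ≠ 0) (c : ℕ → 𝔽)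
    (hc : ∀ (ℓ : ℕ) (hℓ : ℓ.Prime) (hS : ℓ ∉ S) (n : ℕ),
      π ⟨_, qCoeff_mem_of_mem_heckeAlgebra hk R (heckeAt_mem hℓ hS) hf n⟩ = c ℓ * π ⟨_, hf n⟩) :
    ∃ θ : CuspForm.heckeAlgebra N k S →+* 𝔽,
      (∀ (ℓ : ℕ) (hℓ : ℓ.Prime) (hS : ℓ ∉ S), θ ⟨_, heckeAt_mem hℓ hS⟩ = c ℓ) ∧
      ∀ (t : CuspForm.heckeAlgebra N k S) (n : ℕ),
        π ⟨_, qCoeff_mem_of_mem_heckeAlgebra hk R t.2 hf n⟩ = θ t * π ⟨_, hf n⟩ := by
  classical
  have key : ∀ t (ht : t ∈ CuspForm.heckeAlgebra N k S), ∃ a : 𝔽,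
      ∀ (g : CuspForm (CongruenceSubgroup.Gamma0 N) k) (hg : ∀ n, qCoeff g n ∈ R) (u : 𝔽),
      (∀ n, π ⟨_, hg n⟩ = u * π ⟨_, hf n⟩) →
      ∀ n, π ⟨_, qCoeff_mem_of_mem_heckeAlgebra hk R ht hg n⟩ = a * u * π ⟨_, hf n⟩ := by
    intro t ht
    induction ht using Algebra.adjoin_induction with
    | mem t ht =>
      obtain ⟨ℓ, hℓ, hS, rfl⟩ := exists_eq_heckeAt_of_mem_heckeGenerators ht
      refine ⟨c ℓ, fun g hg u hgu n => ?_⟩
      have he : heckeConst N k ℓ ∈ R := by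
        unfold heckeConst
        split
        · exact R.zero_mem
        · obtain ⟨j, hj⟩ := Int.eq_ofNat_of_zero_le (show 0 ≤ k - 1 by omega)
          rw [hj, zpow_natCast]
          exact R.pow_mem (natCast_mem R ℓ) j
      have expand : ∀ (h : CuspForm (CongruenceSubgroup.Gamma0 N) k) (hh : ∀ n, qCoeff h n ∈ R),
          π ⟨_, qCoeff_mem_of_mem_heckeAlgebra hk R (heckeAt_mem hℓ hS) hh n⟩ =
            π ⟨_, hh (ℓ * n)⟩ + π ⟨_, he⟩ * if ℓ ∣ n then π ⟨_, hh (n / ℓ)⟩ else 0 := by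
        intro h hh
        have : (⟨_, qCoeff_mem_of_mem_heckeAlgebra hk R (heckeAt_mem hℓ hS) hh n⟩ : R) =
            ⟨_, hh (ℓ * n)⟩ + ⟨_, he⟩ * if ℓ ∣ n then ⟨_, hh (n / ℓ)⟩ else 0 := by
          refine Subtype.ext ((qCoeff_heckeAt hℓ h n).trans ?_)
          split <;> simp
        rw [this, map_add, map_mul]
        split <;> simp
      have h1 := expand g hg
      have h2 := hc ℓ hℓ hS n
      rw [expand f hf] at h2
      rw [h1, hgu, hgu]
      split at h2 <;> split <;> first | omega | linear_combination u * h2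
    | algebraMap r =>
      refine ⟨r, fun g hg u hgu n => ?_⟩
      have : (⟨_, qCoeff_mem_of_mem_heckeAlgebra hk R
          (Subalgebra.algebraMap_mem (CuspForm.heckeAlgebra N k S) r) hg n⟩ : R)
          = (r : R) * ⟨_, hg n⟩ :=
        Subtype.ext (by simp only [Subring.coe_mul, SubringClass.coe_intCast,
          Module.algebraMap_end_apply, qCoeff_zsmul])
      rw [this, map_mul, map_intCast, hgu]
      ring
    | add x y hx hy ihx ihy =>
      obtain ⟨a, ha⟩ := ihx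
      obtain ⟨b, hb⟩ := ihy
      refine ⟨a + b, fun g hg u hgu n => ?_⟩
      have : (⟨_, qCoeff_mem_of_mem_heckeAlgebra hk R (add_mem hx hy) hg n⟩ : R)
          = ⟨_, qCoeff_mem_of_mem_heckeAlgebra hk R hx hg n⟩
            + ⟨_, qCoeff_mem_of_mem_heckeAlgebra hk R hy hg n⟩ :=
        Subtype.ext (by simp only [Subring.coe_add, LinearMap.add_apply, qCoeff_add])
      rw [this, map_add, ha g hg u hgu, hb g hg u hgu]
      ring
    | mul x y hx hy ihx ihy =>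
      obtain ⟨a, ha⟩ := ihx
      obtain ⟨b, hb⟩ := ihy
      refine ⟨a * b, fun g hg u hgu n => ?_⟩
      have := ha (y g) (fun n => qCoeff_mem_of_mem_heckeAlgebra hk R hy hg n) (b * u)
        (fun m => hb g hg u hgu m) n
      rw [mul_assoc a b u]
      exact this
  choose a ha using key
  have haf : ∀ t (ht : t ∈ CuspForm.heckeAlgebra N k S) (n : ℕ),
      π ⟨_, qCoeff_mem_of_mem_heckeAlgebra hk R ht hf n⟩ = a t ht * π ⟨_, hf n⟩ := fun t ht n => by
    simpa using ha t ht f hf 1 (fun m => (one_mul _).symm) n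
  have uniq : ∀ t (ht : t ∈ CuspForm.heckeAlgebra N k S) (x : 𝔽),
      π ⟨_, qCoeff_mem_of_mem_heckeAlgebra hk R ht hf n₀⟩ = x * π ⟨_, hf n₀⟩ → a t ht = x :=
    fun t ht x hx => mul_right_cancel₀ hn₀ ((haf t ht n₀).symm.trans hx)
  refine ⟨
    { toFun := fun t => a t.1 t.2
      map_one' := uniq _ (one_mem _) _ (by rw [one_mul]; rfl)
      map_mul' := fun x y => uniq _ (x * y).2 _
        (ha x.1 x.2 (y.1 f) (fun n => qCoeff_mem_of_mem_heckeAlgebra hk R y.2 hf n) (a y.1 y.2)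
          (fun m => haf y.1 y.2 m) n₀)
      map_zero' := uniq _ (zero_mem _) _ (by
        rw [zero_mul, ← map_zero π]
        exact congrArg π (Subtype.ext (by
          simpa using qCoeff_zero_fun (N := N) (k := k) n₀)))
      map_add' := fun x y => uniq _ (x + y).2 _ (by
        rw [add_mul, ← haf _ x.2, ← haf _ y.2, ← map_add]
        exact congrArg π (Subtype.ext (qCoeff_add (x.1 f) (y.1 f) n₀))) },
    fun ℓ hℓ hS => uniq _ (heckeAt_mem hℓ hS) _ (hc ℓ hℓ hS n₀), fun t n => haf t.1 t.2 n⟩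

/-- Lifting lemma: a maximal ideal of the full Hecke algebra comes from a normalised eigenform. -/
theorem exists_isEigen_lift (h : CuspForm.HasIntegralStructure N k)
    (𝔪 : Ideal (CuspForm.heckeAlgebra N k ∅)) [𝔪.IsMaximal] :
    ∃ (g : CuspForm (CongruenceSubgroup.Gamma0 N) k)
      (χ : CuspForm.heckeAlgebra N k ∅ →+* integralClosure ℤ ℂ)
      (𝔐 : Ideal (integralClosure ℤ ℂ)),
      IsEigen g ∧ (∀ t, t.1 g = (χ t : ℂ) • g) ∧
      (∀ (ℓ : ℕ) (hℓ : ℓ.Prime),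
        (χ ⟨_, heckeAt_mem hℓ (Set.notMem_empty ℓ)⟩ : ℂ) = qCoeff g ℓ) ∧
      𝔐.IsMaximal ∧ 𝔐.comap χ = 𝔪 := by
  have : Module.Finite ℤ (CuspForm.heckeAlgebra N k ∅) :=
    moduleFinite_heckeAlgebra_of_integralStructure h
  let ρ : CuspForm.heckeAlgebra N k ∅ →+* Module.End ℂ (CuspForm (CongruenceSubgroup.Gamma0 N) k) :=
    (CuspForm.heckeAlgebra N k ∅).val.toRingHom
  have hρ : RingHom.ker ρ ≤ 𝔪 := by
    rw [(RingHom.injective_iff_ker_eq_bot ρ).mp Subtype.val_injective]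
    exact bot_le
  obtain ⟨v, χ, 𝔐, hv0, hχ, h𝔐, hcomap⟩ := exists_eigenvector_lift ρ 𝔪 hρ
  let c : ℕ → ℂ := fun ℓ =>
    if hℓ : ℓ.Prime then (χ ⟨_, heckeAt_mem hℓ (Set.notMem_empty ℓ)⟩ : ℂ) else 0
  have hc : ∀ (ℓ : ℕ) (hℓ : ℓ.Prime), heckeAt N k hℓ v = c ℓ • v := fun ℓ hℓ => by
    simp only [c, dif_pos hℓ]
    exact hχ ⟨_, heckeAt_mem hℓ (Set.notMem_empty ℓ)⟩
  obtain ⟨hg, hval⟩ := isEigen_normalize hc hv0
  refine ⟨_, χ, 𝔐, hg, fun t => ?_, fun ℓ hℓ => ?_, h𝔐, hcomap⟩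
  · exact (map_smul t.1 _ v).trans ((congrArg _ (hχ t)).trans (smul_comm _ _ _))
  · rw [hval ℓ hℓ]
    simp only [c, dif_pos hℓ]

/-- Lifting lemma, residual form: the kernel of a homomorphism into a field of characteristic
`p` lifts. -/
theorem exists_isEigen_lift_of_hom (h : CuspForm.HasIntegralStructure N k) {𝔽 : Type*} [Field 𝔽]
    (p : ℕ) [Fact p.Prime] [CharP 𝔽 p] (θ : CuspForm.heckeAlgebra N k ∅ →+* 𝔽) :
    ∃ (g : CuspForm (CongruenceSubgroup.Gamma0 N) k)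
      (χ : CuspForm.heckeAlgebra N k ∅ →+* integralClosure ℤ ℂ)
      (𝔐 : Ideal (integralClosure ℤ ℂ)),
      IsEigen g ∧ (∀ t, t.1 g = (χ t : ℂ) • g) ∧
      (∀ (ℓ : ℕ) (hℓ : ℓ.Prime),
        (χ ⟨_, heckeAt_mem hℓ (Set.notMem_empty ℓ)⟩ : ℂ) = qCoeff g ℓ) ∧
      𝔐.IsMaximal ∧ (p : integralClosure ℤ ℂ) ∈ 𝔐 ∧ 𝔐.comap χ = RingHom.ker θ := by
  have : Module.Finite ℤ (CuspForm.heckeAlgebra N k ∅) :=
    moduleFinite_heckeAlgebra_of_integralStructure h
  have hmax : (RingHom.ker θ).IsMaximal := by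
    have : (RingHom.ker θ).IsPrime := RingHom.ker_isPrime θ
    refine Ideal.isMaximal_of_isIntegral_of_isMaximal_comap (R := ℤ) (RingHom.ker θ) ?_
    have : (RingHom.ker θ).comap (algebraMap ℤ (CuspForm.heckeAlgebra N k ∅)) =
        Ideal.span {(p : ℤ)} := by
      ext z
      rw [Ideal.mem_comap, RingHom.mem_ker, eq_intCast, map_intCast,
        CharP.intCast_eq_zero_iff 𝔽 p, Ideal.mem_span_singleton]
    rw [this]
    exact PrincipalIdealRing.isMaximal_of_irreducible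
      (Nat.prime_iff_prime_int.mp Fact.out).irreducible
  obtain ⟨g, χ, 𝔐, hg, hχ, hℓ, h𝔐, hc⟩ := exists_isEigen_lift h (RingHom.ker θ)
  refine ⟨g, χ, 𝔐, hg, hχ, hℓ, h𝔐, ?_, hc⟩
  have : (p : CuspForm.heckeAlgebra N k ∅) ∈ RingHom.ker θ := by
    rw [RingHom.mem_ker, map_natCast, CharP.cast_eq_zero]
  rw [← hc, Ideal.mem_comap, map_natCast] at this
  exact this

end FermatAgent.MF
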