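import Mathlib

/-!
The algebra of holomorphic `1`-periodic functions on `ℍ` bounded at infinity.
-/

set_option autoImplicit false

noncomputable section

open scoped MatrixGroups Manifold Real
open UpperHalfPlane

namespace FermatAgent.MF

/-- Holomorphic functions on `ℍ` bounded at infinity. -/
def hBdd : Subalgebra ℂ (ℍ → ℂ) where
  carrier := {f | MDiff f ∧ IsBoundedAtImInfty f}
  mul_mem' hf hg := ⟨hf.1.mul hg.1, hf.2.mul hg.2⟩
  one_mem' := ⟨mdifferentiable_const, Filter.const_boundedAtFilter _ (1 : ℂ)⟩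
  add_mem' hf hg := ⟨hf.1.add hg.1, hf.2.add hg.2⟩
  zero_mem' := ⟨mdifferentiable_const, Filter.const_boundedAtFilter _ (0 : ℂ)⟩
  algebraMap_mem' c := ⟨mdifferentiable_const, Filter.const_boundedAtFilter _ c⟩

/-- Those members of `hBdd` which are `1`-periodic. -/
def hPer : Subalgebra ℂ (ℍ → ℂ) where
  carrier := {f | f ∈ hBdd ∧ Function.Periodic (f ∘ ofComplex) 1}
  mul_mem' hf hg := ⟨mul_mem hf.1 hg.1, hf.2.mul hg.2⟩
  one_mem' := ⟨one_mem _, fun _ => rfl⟩
  add_mem' hf hg := ⟨add_mem hf.1 hg.1, hf.2.add hg.2⟩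
  zero_mem' := ⟨zero_mem _, fun _ => rfl⟩
  algebraMap_mem' c := ⟨Subalgebra.algebraMap_mem _ c, fun _ => rfl⟩

/-- The cusp function of a periodic holomorphic function bounded at infinity is analytic at zero. -/
lemma analyticAt_cuspFunction_of_mem {f : ℍ → ℂ} (hf : f ∈ hPer) :
    AnalyticAt ℂ (cuspFunction 1 f) 0 :=
  analyticAt_cuspFunction_zero one_pos (by simpa using hf.2) hf.1.1 hf.1.2

/-- A modular form of period one is holomorphic, periodic and bounded at infinity. -/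
lemma mem_hPer_of_modularForm {Γ : Subgroup (GL (Fin 2) ℝ)} {k : ℤ} {F : Type*} [FunLike F ℍ ℂ]
    [ModularFormClass F Γ k] (f : F) (hΓ : (1 : ℝ) ∈ Γ.strictPeriods) : ⇑f ∈ hPer :=
  have : Fact (IsCusp OnePoint.infty Γ) := ⟨Γ.isCusp_of_mem_strictPeriods one_pos hΓ⟩
  ⟨⟨ModularFormClass.holo f, ModularFormClass.bdd_at_infty f⟩,
    by simpa using SlashInvariantFormClass.periodic_comp_ofComplex f hΓ⟩

end FermatAgent.MF
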