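import Fermat.Agent.MF.Basic
import Fermat.Prelude.Def_CuspForm_HeckeAlgebra
import Fermat.Prelude.Def_FormalHecke_Eigensystem
import Fermat.Prelude.Thm_ModularFormClass_qCoeff_heckeT
import Fermat.Prelude.Thm_ModularFormClass_qCoeff_heckeU

/-!
Hecke eigenforms and their coefficient recursions.
-/

set_option autoImplicit false

noncomputable section

open scoped MatrixGroups
open UpperHalfPlane ModularFormClass

namespace FermatAgent.MF

section Formal

variable {R : Type*} [CommRing R] {e a : ℕ → R}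

open FormalHecke

/-- An eigensystem is multiplicative and satisfies the prime power recursion. -/
theorem IsEigensystem.isRecursive (h : IsEigensystem e a) : IsRecursive e a := by
  obtain ⟨h1, h2⟩ := h
  refine ⟨h1, fun m => ?_, fun ℓ r hℓ => ?_⟩
  · induction m using Nat.strong_induction_on with
    | _ m ih =>
    intro n hmn
    rcases eq_or_ne m 1 with rfl | hm1
    · simp [h1]
    rcases eq_or_ne m 0 with rfl | hm0
    · obtain rfl : n = 1 := by simpa using hmn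
      simp [h1]
    obtain ⟨ℓ, hℓ, m', rfl⟩ := Nat.exists_prime_and_dvd hm1
    have hm' : m' ≠ 0 := right_ne_zero_of_mul hm0
    have hlt : m' < ℓ * m' := lt_mul_of_one_lt_left (Nat.pos_of_ne_zero hm') hℓ.one_lt
    have hln : ¬ ℓ ∣ n := hℓ.coprime_iff_not_dvd.mp (hmn.coprime_mul_right)
    have hcop : m'.Coprime n := hmn.coprime_mul_left
    have e1 := h2 ℓ hℓ (m' * n)
    have e2 := h2 ℓ hℓ m'
    have hdvd : ℓ ∣ m' * n ↔ ℓ ∣ m' :=
      ⟨fun hd => (hℓ.dvd_mul.mp hd).resolve_right hln, fun hd => hd.mul_right n⟩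
    rw [ih m' hlt n hcop, ← mul_assoc ℓ] at e1
    by_cases hd : ℓ ∣ m'
    · obtain ⟨m'', rfl⟩ := hd
      rw [if_pos (hdvd.mpr (dvd_mul_right ℓ m''))] at e1
      rw [if_pos (dvd_mul_right ℓ m''), Nat.mul_div_cancel_left _ hℓ.pos] at e2
      rw [mul_assoc ℓ m'' n, Nat.mul_div_cancel_left _ hℓ.pos,
        ih m'' ((Nat.le_mul_of_pos_left _ hℓ.pos).trans_lt hlt) n hcop.coprime_mul_left] at e1
      linear_combination e1 - a n * e2
    · rw [if_neg (hdvd.not.mpr hd), mul_zero, add_zero] at e1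
      rw [if_neg hd, mul_zero, add_zero] at e2
      rw [e1, e2, mul_assoc]
  · have := h2 ℓ hℓ (ℓ ^ (r + 1))
    rw [if_pos (dvd_pow_self ℓ (Nat.succ_ne_zero r)), pow_succ ℓ r,
      Nat.mul_div_cancel _ hℓ.pos] at this
    rw [show ℓ ^ (r + 2) = ℓ * (ℓ ^ r * ℓ) by ring, pow_succ ℓ r]
    linear_combination this

/-- The converse, given that `a 0 = 0`. -/
theorem IsRecursive.isEigensystem (h : IsRecursive e a) (h0 : a 0 = 0) : IsEigensystem e a := by
  obtain ⟨h1, hmul, hrec⟩ := h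
  refine ⟨h1, fun ℓ hℓ n => ?_⟩
  rcases eq_or_ne n 0 with rfl | hn
  · simp [h0]
  obtain ⟨r, m, hm, rfl⟩ := Nat.exists_eq_pow_mul_and_not_dvd hn ℓ hℓ.ne_one
  have hcop : ∀ j, (ℓ ^ j).Coprime m := fun j => ((hℓ.coprime_iff_not_dvd).mpr hm).pow_left j
  cases r with
  | zero =>
    have := hmul ℓ m (by simpa using hcop 1)
    simp [hm, this]
  | succ r =>
    rw [if_pos (dvd_mul_of_dvd_left (dvd_pow_self ℓ (Nat.succ_ne_zero r)) m),
      show ℓ ^ (r + 1) * m / ℓ = ℓ ^ r * m by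
        rw [pow_succ, mul_right_comm, Nat.mul_div_cancel _ hℓ.pos],
      ← mul_assoc, ← pow_succ', hmul _ _ (hcop _), hmul _ _ (hcop _), hmul _ _ (hcop _),
      hrec ℓ r hℓ]
    ring

end Formal

variable {N : ℕ} [NeZero N] {k : ℤ} {S : Set ℕ}

/-- The constants `e ℓ` occurring in the Hecke recursion in level `N`, weight `k`. -/
def heckeConst (N : ℕ) (k : ℤ) (ℓ : ℕ) : ℂ := if ℓ ∣ N then 0 else (ℓ : ℂ) ^ (k - 1)

omit [NeZero N] in
/-- The coefficients of `T_p f` are `a(p n) + p ^ (k - 1) a(n / p)`. -/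
lemma qCoeff_heckeTLin {p : ℕ} (hp : p.Prime) (hpN : ¬ p ∣ N)
    (f : CuspForm (CongruenceSubgroup.Gamma0 N) k) (n : ℕ) :
    qCoeff (⇑(CuspForm.heckeTLin k hp hpN f)) n =
      qCoeff f (p * n) + heckeConst N k p * if p ∣ n then qCoeff f (n / p) else 0 := by
  rw [CuspForm.coe_heckeTLin_apply, qCoeff_heckeT f (one_mem_periods N) hp.ne_zero,
    ModularForm.coeffHeckeT_apply, heckeConst, if_neg hpN, mul_comm p n, mul_ite, mul_zero]

/-- The coefficients of `U_q f` for `q` dividing the level are `a(q n)`. -/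
lemma qCoeff_heckeULin {q : ℕ} (hq : q.Prime) (hqN : q ∣ N)
    (f : CuspForm (CongruenceSubgroup.Gamma0 N) k) (n : ℕ) :
    qCoeff (⇑(CuspForm.heckeULin k hqN f)) n =
      qCoeff f (q * n) + heckeConst N k q * if q ∣ n then qCoeff f (n / q) else 0 := by
  rw [CuspForm.coe_heckeULin_apply, qCoeff_heckeU f (one_mem_periods N) hq.ne_zero,
    ModularForm.coeffHeckeU_apply, heckeConst, if_pos hqN, mul_comm q n, zero_mul, add_zero]

/-- The Hecke operator at a prime `ℓ`: `T_ℓ` if `ℓ ∤ N`, `U_ℓ` otherwise. -/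
def heckeAt (N : ℕ) [NeZero N] (k : ℤ) {ℓ : ℕ} (hℓ : ℓ.Prime) :
    Module.End ℂ (CuspForm (CongruenceSubgroup.Gamma0 N) k) :=
  if h : ℓ ∣ N then CuspForm.heckeULin k h else CuspForm.heckeTLin k hℓ h

/-- The coefficients of the image of a form under the Hecke operator at `ℓ`. -/
lemma qCoeff_heckeAt {ℓ : ℕ} (hℓ : ℓ.Prime) (f : CuspForm (CongruenceSubgroup.Gamma0 N) k)
    (n : ℕ) : qCoeff (⇑(heckeAt N k hℓ f)) n =
      qCoeff f (ℓ * n) + heckeConst N k ℓ * if ℓ ∣ n then qCoeff f (n / ℓ) else 0 := by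
  unfold heckeAt
  split
  · exact qCoeff_heckeULin hℓ _ f n
  · exact qCoeff_heckeTLin hℓ _ f n

/-- The first coefficient of `T_ℓ f` is `a_ℓ`. -/
lemma qCoeff_one_heckeAt {ℓ : ℕ} (hℓ : ℓ.Prime) (f : CuspForm (CongruenceSubgroup.Gamma0 N) k) :
    qCoeff (⇑(heckeAt N k hℓ f)) 1 = qCoeff f ℓ := by
  rw [qCoeff_heckeAt, if_neg (by simpa using hℓ.ne_one)]
  simp

/-- The Hecke operator at a prime outside `S` lies in the Hecke algebra away from `S`. -/
lemma heckeAt_mem {ℓ : ℕ} (hℓ : ℓ.Prime) (hS : ℓ ∉ S) :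
    heckeAt N k hℓ ∈ CuspForm.heckeAlgebra N k S := by
  unfold heckeAt
  split
  · exact CuspForm.heckeULin_mem_heckeAlgebra hℓ _ hS
  · exact CuspForm.heckeTLin_mem_heckeAlgebra hℓ _ hS

/-- Every generator of the Hecke algebra away from `S` is some `T_ℓ`. -/
lemma exists_eq_heckeAt_of_mem_heckeGenerators
    {t : Module.End ℂ (CuspForm (CongruenceSubgroup.Gamma0 N) k)}
    (ht : t ∈ CuspForm.heckeGenerators N k S) :
    ∃ (ℓ : ℕ) (hℓ : ℓ.Prime), ℓ ∉ S ∧ t = heckeAt N k hℓ := by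
  rcases ht with ⟨ℓ, hℓ, hℓN, hS, rfl⟩ | ⟨q, hqN, hq, hS, rfl⟩
  · exact ⟨ℓ, hℓ, hS, by rw [heckeAt, dif_neg hℓN]⟩
  · exact ⟨q, hq, hS, by rw [heckeAt, dif_pos hqN]⟩

/-- A normalised eigenform of weight `k`: an eigensystem of coefficients. -/
def IsEigen (f : CuspForm (CongruenceSubgroup.Gamma0 N) k) : Prop :=
  FormalHecke.IsEigensystem (heckeConst N k) (qCoeff f)

/-- An eigenform has eigenvalue `a_ℓ` under `T_ℓ`. -/
theorem IsEigen.heckeAt_apply {f : CuspForm (CongruenceSubgroup.Gamma0 N) k} (h : IsEigen f)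
    {ℓ : ℕ} (hℓ : ℓ.Prime) : heckeAt N k hℓ f = qCoeff f ℓ • f :=
  ext_of_qCoeff fun n => by rw [qCoeff_heckeAt, qCoeff_smul, h.2 ℓ hℓ n]

omit [NeZero N] in
/-- A normalised eigenvector of all Hecke operators is a normalised eigenform, and conversely. -/
theorem isEigen_iff_isNormalizedEigenform (f : CuspForm (CongruenceSubgroup.Gamma0 N) 2) :
    IsEigen f ↔ f.IsNormalizedEigenform := by
  constructor
  · intro h
    obtain ⟨h1, hm, hr⟩ := IsEigensystem.isRecursive h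
    refine ⟨h1, hm, fun p r hp hpN => ?_, fun p r hp hpN => ?_⟩
    · simpa [heckeConst, hpN] using hr p r hp
    · simpa [heckeConst, hpN] using hr p r hp
  · intro h
    refine IsRecursive.isEigensystem ⟨h.qCoeff_one, h.qCoeff_mul_of_coprime, fun p r hp => ?_⟩
      (qCoeff_index_zero f)
    by_cases hpN : p ∣ N
    · simpa [heckeConst, hpN] using h.qCoeff_prime_pow_of_dvd p r hp hpN
    · simpa [heckeConst, hpN] using h.qCoeff_prime_pow_of_not_dvd p r hp hpN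

section

variable {f : CuspForm (CongruenceSubgroup.Gamma0 N) k} {c : ℕ → ℂ}
  (hf : ∀ (ℓ : ℕ) (hℓ : ℓ.Prime), heckeAt N k hℓ f = c ℓ • f)

include hf

/-- An eigenvector of all Hecke operators with `a₁ = 0` vanishes. -/
theorem eq_zero_of_qCoeff_one_eq_zero (h1 : qCoeff f 1 = 0) : f = 0 := by
  refine ext_of_qCoeff fun n => ?_
  rw [qCoeff_zero_fun]
  induction n using Nat.strong_induction_on with
  | _ n ih =>
  rcases eq_or_ne n 0 with rfl | hn0
  · exact qCoeff_index_zero f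
  rcases eq_or_ne n 1 with rfl | hn1
  · exact h1
  obtain ⟨ℓ, hℓ, m, rfl⟩ := Nat.exists_prime_and_dvd hn1
  have hlt : m < ℓ * m := lt_mul_of_one_lt_left
    (Nat.pos_of_ne_zero (right_ne_zero_of_mul hn0)) hℓ.one_lt
  have := qCoeff_heckeAt hℓ f m
  rw [hf ℓ hℓ, qCoeff_smul, ih m hlt] at this
  split at this
  · rw [ih (m / ℓ) ((Nat.div_le_self m ℓ).trans_lt hlt)] at this
    simpa using this.symm
  · simpa using this.symm

theorem qCoeff_one_ne_zero (hne : f ≠ 0) : qCoeff f 1 ≠ 0 :=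
  fun h1 => hne (eq_zero_of_qCoeff_one_eq_zero hf h1)

theorem qCoeff_eq_eigenvalue_mul {ℓ : ℕ} (hℓ : ℓ.Prime) : qCoeff f ℓ = c ℓ * qCoeff f 1 := by
  rw [← qCoeff_one_heckeAt hℓ f, hf ℓ hℓ, qCoeff_smul]

/-- A nonzero eigenvector of all Hecke operators is a multiple of a normalised eigenform. -/
theorem isEigen_normalize (hne : f ≠ 0) :
    IsEigen ((qCoeff f 1)⁻¹ • f) ∧
      ∀ (ℓ : ℕ), ℓ.Prime → qCoeff (⇑((qCoeff f 1)⁻¹ • f)) ℓ = c ℓ := by
  have h1 := qCoeff_one_ne_zero hf hne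
  set g := (qCoeff f 1)⁻¹ • f with hg
  have hg1 : qCoeff g 1 = 1 := by rw [hg, qCoeff_smul, inv_mul_cancel₀ h1]
  have hval : ∀ ℓ : ℕ, ℓ.Prime → qCoeff g ℓ = c ℓ := fun ℓ hℓ => by
    rw [hg, qCoeff_smul, qCoeff_eq_eigenvalue_mul hf hℓ]
    field_simp
  refine ⟨⟨hg1, fun ℓ hℓ n => ?_⟩, hval⟩
  have hgℓ : heckeAt N k hℓ g = c ℓ • g := by rw [hg, map_smul, hf ℓ hℓ, smul_comm]
  rw [← qCoeff_heckeAt hℓ g n, hgℓ, qCoeff_smul, hval ℓ hℓ]

end

/-- A normalised eigenform is an eigenvector of the whole Hecke algebra. -/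
theorem IsEigen.exists_eigenvalue {f : CuspForm (CongruenceSubgroup.Gamma0 N) k} (h : IsEigen f)
    {t : Module.End ℂ (CuspForm (CongruenceSubgroup.Gamma0 N) k)}
    (ht : t ∈ CuspForm.heckeAlgebra N k S) : t f = qCoeff (⇑(t f)) 1 • f := by
  suffices ∃ c : ℂ, t f = c • f by
    obtain ⟨c, hc⟩ := this
    rw [hc, qCoeff_smul, h.1, mul_one]
  induction ht using Algebra.adjoin_induction with
  | mem t ht =>
    obtain ⟨ℓ, hℓ, -, rfl⟩ := exists_eq_heckeAt_of_mem_heckeGenerators ht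
    exact ⟨_, h.heckeAt_apply hℓ⟩
  | algebraMap r =>
    exact ⟨(r : ℂ), by rw [Module.algebraMap_end_apply, Int.cast_smul_eq_zsmul]⟩
  | add x y _ _ hx hy =>
    obtain ⟨a, ha⟩ := hx; obtain ⟨b, hb⟩ := hy
    exact ⟨a + b, by rw [LinearMap.add_apply, ha, hb, add_smul]⟩
  | mul x y _ _ hx hy =>
    obtain ⟨a, ha⟩ := hx; obtain ⟨b, hb⟩ := hy
    exact ⟨b * a, by rw [Module.End.mul_apply, hb, map_smul, ha, smul_smul]⟩

end FermatAgent.MF
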