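import Fermat.Agent.MF.IntegralStructure

/-!
Duality between the full Hecke algebra and cusp forms, over `ℂ` and over `ℤ`;
multiplicity one for the full Hecke algebra.
-/

set_option autoImplicit false

noncomputable section

open scoped MatrixGroups
open UpperHalfPlane ModularFormClass

namespace FermatAgent.MF

variable {N : ℕ} [NeZero N] {k : ℤ}

/-- For `n ≥ 1` there is a Hecke operator `tₙ` with `a₁(tₙ f) = aₙ(f)`. -/
theorem exists_coeffOp (hk : 1 ≤ k) {n : ℕ} (hn : n ≠ 0) :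
    ∃ t : CuspForm.heckeAlgebra N k ∅, ∀ f : CuspForm (CongruenceSubgroup.Gamma0 N) k,
      qCoeff (⇑(t.1 f)) 1 = qCoeff f n := by
  induction n using Nat.strong_induction_on with
  | _ n ih =>
  rcases eq_or_ne n 1 with rfl | hn1
  · exact ⟨1, fun f => rfl⟩
  obtain ⟨ℓ, hℓ, m, rfl⟩ := Nat.exists_prime_and_dvd hn1
  have hm : m ≠ 0 := right_ne_zero_of_mul hn
  obtain ⟨t, ht⟩ := ih m (lt_mul_of_one_lt_left (Nat.pos_of_ne_zero hm) hℓ.one_lt) hm
  let T : CuspForm.heckeAlgebra N k ∅ := ⟨_, heckeAt_mem hℓ (Set.notMem_empty ℓ)⟩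
  by_cases hd : ℓ ∣ m
  · obtain ⟨m', rfl⟩ := hd
    have hm' : m' ≠ 0 := right_ne_zero_of_mul hm
    obtain ⟨t', ht'⟩ := ih m' (by
      have := Nat.le_mul_of_pos_left m' hℓ.pos
      exact this.trans_lt (lt_mul_of_one_lt_left (Nat.pos_of_ne_zero hm) hℓ.one_lt)) hm'
    obtain ⟨e, he⟩ : ∃ e : ℤ, heckeConst N k ℓ = (e : ℂ) := by
      unfold heckeConst
      split
      · exact ⟨0, by simp⟩
      · obtain ⟨j, hj⟩ := Int.eq_ofNat_of_zero_le (show 0 ≤ k - 1 by omega)
        exact ⟨(ℓ : ℤ) ^ j, by rw [hj, zpow_natCast]; push_cast; rfl⟩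
    refine ⟨t * T - e • t', fun f => ?_⟩
    have hexp : (t * T - e • t').1 f = t.1 (T.1 f) - e • t'.1 f := rfl
    rw [hexp, qCoeff_sub, qCoeff_zsmul, ht, ht']
    show qCoeff (⇑(heckeAt N k hℓ f)) _ - _ = _
    rw [qCoeff_heckeAt, if_pos (dvd_mul_right ℓ m'), Nat.mul_div_cancel_left _ hℓ.pos, he]
    ring
  · refine ⟨t * T, fun f => ?_⟩
    show qCoeff (⇑(t.1 (T.1 f))) 1 = _
    rw [ht]
    show qCoeff (⇑(heckeAt N k hℓ f)) m = _
    rw [qCoeff_heckeAt, if_neg hd, mul_zero, add_zero]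

/-- The pairing `(f, t) ↦ a₁(t f)`. -/
def dualMap (N : ℕ) [NeZero N] (k : ℤ) :
    CuspForm (CongruenceSubgroup.Gamma0 N) k →ₗ[ℂ] (CuspForm.heckeAlgebra N k ∅ →ₗ[ℤ] ℂ) where
  toFun f :=
    (AddMonoidHom.mk' (fun t : CuspForm.heckeAlgebra N k ∅ => qCoeff (⇑(t.1 f)) 1)
      fun s t => qCoeff_add (s.1 f) (t.1 f) 1).toIntLinearMap
  map_add' f g := by
    ext t
    show qCoeff (⇑(t.1 (f + g))) 1 = qCoeff (⇑(t.1 f)) 1 + qCoeff (⇑(t.1 g)) 1
    rw [map_add, qCoeff_add]
  map_smul' c f := by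
    ext t
    show qCoeff (⇑(t.1 (c • f))) 1 = c • qCoeff (⇑(t.1 f)) 1
    rw [map_smul, qCoeff_smul, smul_eq_mul]

@[simp] lemma dualMap_apply (f : CuspForm (CongruenceSubgroup.Gamma0 N) k)
    (t : CuspForm.heckeAlgebra N k ∅) : dualMap N k f t = qCoeff (⇑(t.1 f)) 1 := rfl

lemma qCoeff_one_eq_zero_imp {t : CuspForm.heckeAlgebra N k ∅} (hk : 1 ≤ k)
    (h : ∀ f : CuspForm (CongruenceSubgroup.Gamma0 N) k, qCoeff (⇑(t.1 f)) 1 = 0) : t = 0 := by
  apply Subtype.ext
  refine LinearMap.ext fun f => ext_of_qCoeff fun n => ?_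
  rcases eq_or_ne n 0 with rfl | hn
  · rw [qCoeff_index_zero, qCoeff_index_zero]
  obtain ⟨s, hs⟩ := exists_coeffOp (N := N) hk hn
  rw [← hs (t.1 f), ZeroMemClass.coe_zero, LinearMap.zero_apply, qCoeff_zero_fun]
  show qCoeff (⇑((s * t).1 f)) 1 = 0
  open scoped IsMulCommutative in
  rw [mul_comm s t]
  exact h (s.1 f)

theorem dualMap_injective (hk : 1 ≤ k) : Function.Injective (dualMap N k) := by
  rw [injective_iff_map_eq_zero]
  intro f hf
  refine ext_of_qCoeff fun n => ?_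
  rw [qCoeff_zero_fun]
  rcases eq_or_ne n 0 with rfl | hn
  · exact qCoeff_index_zero f
  obtain ⟨t, ht⟩ := exists_coeffOp (N := N) hk hn
  rw [← ht f]
  exact LinearMap.congr_fun hf t

/-- `S_k(Γ₀(N)) ≅ Hom_ℤ(T, ℂ)`. -/
theorem dualMap_bijective (hk : 1 ≤ k) : Function.Bijective (dualMap N k) := by
  classical
  refine ⟨dualMap_injective hk, fun φ => ?_⟩
  have : Module.Finite ℤ (CuspForm.heckeAlgebra N k ∅) := moduleFinite_heckeAlgebra N k ∅
  let b := Module.Free.chooseBasis ℤ (CuspForm.heckeAlgebra N k ∅)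
  obtain ⟨G, hG⟩ := Submodule.fg_def.mp (Module.Finite.iff_fg.mp
    (show Module.Finite ℤ (CuspForm.intLattice N k) from
      Module.Finite.iff_fg.mpr (CuspForm.intLattice_fg N k)))
  have hGfin : Finite G := hG.1
  have hGfin' : Fintype G := Fintype.ofFinite G
  have hmemG : ∀ g : G, (g : CuspForm (CongruenceSubgroup.Gamma0 N) k) ∈ CuspForm.intLattice N k :=
    fun g => hG.2 ▸ Submodule.subset_span g.2
  have hint : ∀ (t : CuspForm.heckeAlgebra N k ∅) (g : G), ∃ m : ℤ, qCoeff (⇑(t.1 g.1)) 1 = m :=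
    fun t g => mem_intLattice_iff.mp
      (CuspForm.mem_intLattice_of_mem_heckeAlgebra hk t.2 (hmemG g)) 1
  choose val hval using hint
  have hli : LinearIndependent ℤ (fun i => val (b i)) := by
    rw [Fintype.linearIndependent_iff]
    intro c hc
    have hzero : ∑ i, c i • b i = 0 := by
      refine qCoeff_one_eq_zero_imp hk fun f => ?_
      have hlin : (coeffLin N k 1).comp (∑ i, c i • b i).1 = 0 := by
        refine LinearMap.ext_on
          (show Submodule.span ℂ (G : Set (CuspForm (CongruenceSubgroup.Gamma0 N) k)) = ⊤ from ?_)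
          fun g hg => ?_
        · rw [eq_top_iff, ← (hasIntegralStructure N k : _ = ⊤), ← hG.2]
          exact Submodule.span_le.mpr fun x hx =>
            Submodule.span_le_restrictScalars ℤ ℂ G hx
        · have h1 := congrFun hc ⟨g, hg⟩
          simp only [Finset.sum_apply, Pi.smul_apply, smul_eq_mul, Pi.zero_apply] at h1
          have e : (∑ i, c i • b i).1 = ∑ i, c i • (b i).1 :=
            map_sum (CuspForm.heckeAlgebra N k ∅).val (fun i => c i • b i) Finset.univ |>.trans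
              (Finset.sum_congr rfl fun i _ => map_zsmul (CuspForm.heckeAlgebra N k ∅).val _ _)
          rw [e, LinearMap.comp_apply, LinearMap.zero_apply, LinearMap.coe_sum, Finset.sum_apply,
            coeffLin_apply, qCoeff_sum]
          simp only [LinearMap.smul_apply, qCoeff_zsmul, hval _ ⟨g, hg⟩]
          exact_mod_cast h1
      exact LinearMap.congr_fun hlin f
    exact fun i => Fintype.linearIndependent_iff.mp b.linearIndependent c hzero i
  have hliC : LinearIndependent ℂ (fun i => algebraMap ℤ ℂ ∘ val (b i)) :=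
    linearIndependent_algebraMap_comp_iff.mpr hli
  let M : (G → ℂ) →ₗ[ℂ] (Module.Free.ChooseBasisIndex ℤ (CuspForm.heckeAlgebra N k ∅) → ℂ) :=
    Matrix.mulVecLin (Matrix.of fun i g => ((val (b i) g : ℤ) : ℂ))
  have hM : Function.Surjective M := by
    rw [← LinearMap.range_eq_top]
    apply Submodule.eq_top_of_finrank_eq
    show Matrix.rank _ = _
    rw [Matrix.rank_eq_finrank_span_row, finrank_span_eq_card (by exact hliC),
      Module.finrank_pi]
  obtain ⟨x, hx⟩ := hM fun i => φ (b i)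
  refine ⟨∑ g, x g • g.1, b.ext fun i => ?_⟩
  rw [← congrFun hx i, dualMap_apply, map_sum, qCoeff_sum]
  simp only [M, Matrix.mulVecLin_apply, Matrix.mulVec, dotProduct, Matrix.of_apply, map_smul,
    qCoeff_smul, hval]
  exact Finset.sum_congr rfl fun g _ => mul_comm _ _

/-- `L ≅ Hom_ℤ(T, ℤ)`: the integral lattice is the dual of the Hecke algebra. -/
theorem intLattice_dual (hk : 1 ≤ k) (φ : CuspForm.heckeAlgebra N k ∅ →ₗ[ℤ] ℤ) :
    ∃! f : CuspForm.intLattice N k, ∀ t : CuspForm.heckeAlgebra N k ∅,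
      qCoeff (⇑(t.1 f.1)) 1 = (φ t : ℂ) := by
  obtain ⟨f, hf⟩ := (dualMap_bijective (N := N) hk).2 ((Algebra.linearMap ℤ ℂ).comp φ)
  have hf' : ∀ t : CuspForm.heckeAlgebra N k ∅, qCoeff (⇑(t.1 f)) 1 = (φ t : ℂ) :=
    fun t => LinearMap.congr_fun hf t
  refine ⟨⟨f, mem_intLattice_iff.mpr fun n => ?_⟩, hf', fun g hg =>
    Subtype.ext (dualMap_injective hk (LinearMap.ext fun t => (hg t).trans (hf' t).symm))⟩
  rcases eq_or_ne n 0 with rfl | hn
  · exact ⟨0, by rw [qCoeff_index_zero]; simp⟩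
  obtain ⟨t, ht⟩ := exists_coeffOp (N := N) hk hn
  exact ⟨φ t, by rw [← ht f, hf']⟩

/-- Multiplicity one for the full Hecke algebra: a common eigenspace is at most a line. -/
theorem eq_smul_of_eigen (hk : 1 ≤ k) {χ : CuspForm.heckeAlgebra N k ∅ → ℂ}
    {f g : CuspForm (CongruenceSubgroup.Gamma0 N) k} (hf : ∀ t, t.1 f = χ t • f)
    (hg : ∀ t, t.1 g = χ t • g) : qCoeff f 1 • g = qCoeff g 1 • f := by
  refine dualMap_injective hk (LinearMap.ext fun t => ?_)
  rw [dualMap_apply, dualMap_apply, map_smul, map_smul, qCoeff_smul, qCoeff_smul, hf, hg,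
    qCoeff_smul, qCoeff_smul]
  ring

/-- Every character of the full Hecke algebra is afforded by a normalised eigenform. -/
theorem exists_isEigen_of_hom (hk : 1 ≤ k) (χ : CuspForm.heckeAlgebra N k ∅ →+* ℂ) :
    ∃! f : CuspForm (CongruenceSubgroup.Gamma0 N) k, IsEigen f ∧ ∀ t, t.1 f = χ t • f := by
  obtain ⟨f, hf⟩ := (dualMap_bijective (N := N) hk).2 χ.toAddMonoidHom.toIntLinearMap
  have hf' : ∀ t : CuspForm.heckeAlgebra N k ∅, qCoeff (⇑(t.1 f)) 1 = χ t :=
    fun t => LinearMap.congr_fun hf t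
  have heig : ∀ t, t.1 f = χ t • f := fun t => dualMap_injective hk <| LinearMap.ext fun s => by
    rw [dualMap_apply, dualMap_apply, map_smul, qCoeff_smul, hf' s, mul_comm (χ t), ← map_mul,
      ← hf' (s * t)]
    rfl
  have h1 : qCoeff f 1 = 1 := by
    have := hf' 1
    rwa [map_one, OneMemClass.coe_one, Module.End.one_apply] at this
  have hc : ∀ (ℓ : ℕ) (hℓ : ℓ.Prime), heckeAt N k hℓ f =
      (fun ℓ => if hℓ : ℓ.Prime then χ ⟨_, heckeAt_mem hℓ (Set.notMem_empty ℓ)⟩ else 0) ℓ • f :=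
    fun ℓ hℓ => by simpa [hℓ] using heig ⟨_, heckeAt_mem hℓ (Set.notMem_empty ℓ)⟩
  have hne : f ≠ 0 := fun h => by rw [h, qCoeff_zero_fun] at h1; exact zero_ne_one h1
  have := (isEigen_normalize hc hne).1
  rw [h1, inv_one, one_smul] at this
  refine ⟨f, ⟨this, heig⟩, fun g hg => ?_⟩
  have := eq_smul_of_eigen hk heig hg.2
  rwa [h1, hg.1.1, one_smul, one_smul] at this

end FermatAgent.MF
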