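import Mathlib

/-!
`ℚ` is the fixed field of `Aut ℂ`; descent of automorphism-stable subspaces of `ℂ^ι`.
-/

set_option autoImplicit false

noncomputable section

namespace FermatAgent.MF

open MvPolynomial

/-- An automorphism of a polynomial ring on a transcendence basis extends to `ℂ`. -/
theorem exists_ringEquiv_extend {R : Type*} [CommRing R] [Algebra R ℂ]
    {ι : Type*} {v : ι → ℂ} (hv : IsTranscendenceBasis R v)
    (e : MvPolynomial ι R ≃+* MvPolynomial ι R) :
    ∃ σ : ℂ ≃+* ℂ, ∀ p, σ (aeval v p) = aeval v (e p) := by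
  have : IsAlgClosure (Algebra.adjoin R (Set.range v)) ℂ :=
    IsAlgClosed.isAlgClosure_of_transcendence_basis v hv
  have : Nontrivial R := RingHom.domain_nontrivial (algebraMap R ℂ)
  let f : MvPolynomial ι R ≃+* Algebra.adjoin R (Set.range v) := hv.1.aevalEquiv.toRingEquiv
  let e' := (f.symm.trans e).trans f
  refine ⟨IsAlgClosure.equivOfEquiv ℂ ℂ e', fun p => ?_⟩
  have hf : ∀ q, algebraMap (Algebra.adjoin R (Set.range v)) ℂ (f q) = aeval v q :=
    fun q => hv.1.algebraMap_aevalEquiv q
  rw [← hf p, IsAlgClosure.equivOfEquiv_algebraMap]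
  simp [e', hf]

/-- A number transcendental over a subfield is translated by any element of the subfield under
some automorphism fixing the subfield. -/
theorem exists_translate {R : Type*} [Field R] [Algebra R ℂ] {x : ℂ} (hx : ¬ IsAlgebraic R x)
    (a : R) :
    ∃ σ : ℂ ≃+* ℂ, (∀ r, σ (algebraMap R ℂ r) = algebraMap R ℂ r) ∧
      σ x = x + algebraMap R ℂ a := by
  classical
  have hs : AlgebraicIndepOn R id ({x} : Set ℂ) := by
    refine algebraicIndependent_unique_type_iff.mpr ?_
    rw [show ((default : ({x} : Set ℂ)) : ℂ) = x from (default : ({x} : Set ℂ)).2]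
    exact hx
  obtain ⟨s, hxs, hs⟩ := exists_isTranscendenceBasis_superset hs
  let i₀ : s := ⟨x, hxs rfl⟩
  let e : MvPolynomial s R ≃ₐ[R] MvPolynomial s R :=
    AlgEquiv.ofAlgHom (aeval fun i => X i + C (if i = i₀ then a else 0))
      (aeval fun i => X i - C (if i = i₀ then a else 0))
      (algHom_ext fun i => by simp)
      (algHom_ext fun i => by simp)
  obtain ⟨σ, hσ⟩ := exists_ringEquiv_extend hs e.toRingEquiv
  refine ⟨σ, fun r => ?_, ?_⟩
  · simpa [e] using hσ (C r)
  · simpa [e, i₀] using hσ (X i₀)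

/-- `ℚ` is the fixed field of `Aut ℂ`. -/
theorem exists_ratCast_eq_of_fixed {x : ℂ} (h : ∀ σ : ℂ ≃+* ℂ, σ x = x) : ∃ q : ℚ, x = q := by
  by_cases hx : IsAlgebraic ℚ x
  · let F := algebraicClosure ℚ ℂ
    let x' : F := ⟨x, mem_algebraicClosure_iff.mpr hx⟩
    have hfix : ∀ g : Gal(F/ℚ), g x' = x' := by
      intro g
      obtain ⟨s, hs⟩ := exists_isTranscendenceBasis F ℂ
      obtain ⟨σ, hσ⟩ := exists_ringEquiv_extend hs (mapEquiv s g.toRingEquiv)
      have h1 := hσ (C x')
      have h2 : aeval (Subtype.val : s → ℂ) (C x') = x := by simp [x']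
      rw [h2, h] at h1
      apply Subtype.ext
      refine (Eq.trans ?_ h1.symm)
      simp
    have : IsAlgClosure ℚ F := algebraicClosure.isAlgClosure ℚ ℂ
    have : Normal ℚ F := IsAlgClosure.normal ℚ F
    have : IsGalois ℚ F := ⟨⟩
    obtain ⟨q, hq⟩ := IntermediateField.mem_bot.mp ((InfiniteGalois.mem_bot_iff_fixed x').mpr hfix)
    exact ⟨q, by simpa [x'] using (congrArg Subtype.val hq).symm⟩
  · obtain ⟨σ, -, hσ⟩ := exists_translate hx (1 : ℚ)
    simp [h] at hσ

/-- A subspace of `ℂ^ι` stable under all field automorphisms is spanned by rational vectors. -/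
theorem span_rational_of_stable {ι : Type*} [Fintype ι] (W : Submodule ℂ (ι → ℂ))
    (hW : ∀ (σ : ℂ ≃+* ℂ), ∀ w ∈ W, (fun i => σ (w i)) ∈ W) :
    W = Submodule.span ℂ {w | w ∈ W ∧ ∀ i, ∃ q : ℚ, w i = q} := by
  classical
  refine le_antisymm ?_ (Submodule.span_le.mpr fun w hw => hw.1)
  intro w hw
  induction hn : (Finset.univ.filter fun i => w i ≠ 0).card using Nat.strong_induction_on
    generalizing w with
  | _ n ih =>
  subst hn
  let supp : (ι → ℂ) → Finset ι := fun u => Finset.univ.filter fun i => u i ≠ 0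
  by_cases hw0 : w = 0
  · simp [hw0]
  obtain ⟨u, ⟨huW, hu0, husub⟩, humin⟩ := (measure fun u : ι → ℂ => (supp u).card).wf.has_min
    {u | u ∈ W ∧ u ≠ 0 ∧ supp u ⊆ supp w} ⟨w, hw, hw0, subset_rfl⟩
  obtain ⟨i, hi⟩ := Function.ne_iff.mp hu0
  let u' : ι → ℂ := (u i)⁻¹ • u
  have hu'i : u' i = 1 := by simpa [u'] using inv_mul_cancel₀ hi
  have hsupp' : ∀ j, u' j ≠ 0 → u j ≠ 0 := fun j hj h0 => hj (by simp [u', h0])
  have hrat : ∀ j, ∃ q : ℚ, u' j = q := by
    intro j
    refine exists_ratCast_eq_of_fixed fun σ => ?_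
    by_contra hne
    let d : ι → ℂ := (fun j => σ (u' j)) - u'
    have hdi : d i = 0 := by simp [d, hu'i]
    have hdsub : supp d ⊆ (supp u).erase i := by
      intro l hl
      simp only [supp, Finset.mem_filter, Finset.mem_erase, Finset.mem_univ, true_and] at hl ⊢
      refine ⟨fun he => hl (he ▸ hdi), fun h0 => hl ?_⟩
      simp [d, u', h0]
    refine humin d ⟨W.sub_mem (hW σ _ (W.smul_mem _ huW)) (W.smul_mem _ huW),
      fun hd => hne (sub_eq_zero.mp (congrFun hd j)),
      hdsub.trans ((Finset.erase_subset _ _).trans husub)⟩ ?_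
    exact (Finset.card_le_card hdsub).trans_lt
      (Finset.card_erase_lt_of_mem (by simpa [supp] using hi))
  have hu'mem : u' ∈ Submodule.span ℂ {w | w ∈ W ∧ ∀ i, ∃ q : ℚ, w i = q} :=
    Submodule.subset_span ⟨W.smul_mem _ huW, hrat⟩
  have hlt : (supp (w - w i • u')).card < (supp w).card := by
    refine (Finset.card_le_card (t := (supp w).erase i) ?_).trans_lt
      (Finset.card_erase_lt_of_mem (husub (by simpa [supp] using hi)))
    intro l hl
    simp only [supp, Finset.mem_filter, Finset.mem_erase, Finset.mem_univ, true_and] at hl ⊢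
    refine ⟨fun he => hl (by subst he; simp [hu'i]), fun h0 => hl ?_⟩
    have : u l = 0 := by
      by_contra hul
      have := husub (show l ∈ supp u by simpa [supp] using hul)
      exact (Finset.mem_filter.mp this).2 h0
    simp [h0, u', this]
  have := ih _ hlt (w := w - w i • u') (W.sub_mem hw (W.smul_mem _ (W.smul_mem _ huW))) rfl
  simpa using add_mem this (Submodule.smul_mem _ (w i) hu'mem)

end FermatAgent.MF
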